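import Fermat.Agent.S48.Rankin.Mult

/-!
# S48 / ALG, leaf D0: normalised Hecke sequences: definitions, depletion, extensionality
-/

set_option autoImplicit false

namespace Fermat.Agent.S48.Alg

open Fermat.Agent.S48.Rankin

/-- Normalised Hecke sequences with "character" `e`, supported on the integers prime to `N`. -/
structure IsHeckeSeq (N : ℕ) (e : ℕ → ℂ) (s : ℕ → ℂ) : Prop where
  zero : s 0 = 0
  one : s 1 = 1
  supp : ∀ n, ¬ n.Coprime N → s n = 0
  rel : HeckeRel N s e

/-- depletion of a sequence. -/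
def depl (N : ℕ) (a : ℕ → ℂ) (n : ℕ) : ℂ := if n.Coprime N then a n else 0

/-- (D0) The depletion of a Hecke sequence is a Hecke sequence.  (For `p ∤ N` prime: `p n` resp. `n / p`
(if `p ∣ n`) is prime to `N` iff `n` is.) -/
theorem isHeckeSeq_depl {N : ℕ} {a e : ℕ → ℂ} (h0 : a 0 = 0) (h1 : a 1 = 1) (hT : HeckeRel N a e) :
    IsHeckeSeq N e (depl N a) := by
  refine ⟨?_, ?_, ?_, ?_⟩
  · unfold depl
    split_ifs
    · exact h0
    · rfl
  · unfold depl
    rw [if_pos (Nat.coprime_one_left N), h1]
  · intro n hn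
    unfold depl
    rw [if_neg hn]
  · intro p hp hpN n
    have hpc : p.Coprime N := (Nat.Prime.coprime_iff_not_dvd hp).2 hpN
    have hmul : ∀ m : ℕ, (p * m).Coprime N ↔ m.Coprime N := by
      intro m
      rw [Nat.coprime_mul_iff_left]
      exact ⟨fun h => h.2, fun h => ⟨hpc, h⟩⟩
    have hdiv : p ∣ n → ((n / p).Coprime N ↔ n.Coprime N) := by
      rintro ⟨m, rfl⟩
      rw [Nat.mul_div_cancel_left _ hp.pos, hmul]
    unfold depl
    rw [if_pos hpc]
    by_cases hn : n.Coprime N
    · rw [if_pos ((hmul n).2 hn), if_pos hn, ← hT p hp hpN n]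
      by_cases hd : p ∣ n
      · rw [if_pos hd, if_pos hd, if_pos ((hdiv hd).2 hn)]
      · rw [if_neg hd, if_neg hd]
    · rw [if_neg (fun h => hn ((hmul n).1 h)), if_neg hn]
      by_cases hd : p ∣ n
      · rw [if_pos hd, if_neg (fun h => hn ((hdiv hd).1 h))]
        ring
      · rw [if_neg hd]
        ring

/-- (D1) A Hecke sequence is determined by its values at the primes `p ∤ N`.  Strong induction on `n`:
`n = 0, 1` clear; `n` not prime to `N`: `supp`; otherwise `n = p m` with `p` prime, `p ∤ N`, and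
`s (p m) = s p * s m - e p * (if p ∣ m then s (m / p) else 0)`. -/
theorem IsHeckeSeq.ext {N : ℕ} {e s s' : ℕ → ℂ} (h : IsHeckeSeq N e s) (h' : IsHeckeSeq N e s')
    (hp : ∀ p : ℕ, p.Prime → ¬ p ∣ N → s p = s' p) : s = s' := by
  funext n
  induction n using Nat.strong_induction_on with
  | _ n ih =>
    by_cases hn0 : n = 0
    · rw [hn0, h.zero, h'.zero]
    by_cases hn1 : n = 1
    · rw [hn1, h.one, h'.one]
    by_cases hc : n.Coprime N
    · obtain ⟨p, hpp, m, rfl⟩ := Nat.exists_prime_and_dvd hn1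
      have hpN : ¬ p ∣ N := by
        intro hd
        have h1 : p.Coprime N := Nat.Coprime.coprime_dvd_left (Dvd.intro _ rfl) hc
        exact hpp.one_lt.ne' (Nat.Coprime.eq_one_of_dvd h1 hd)
      have hm0 : 0 < m := Nat.pos_of_ne_zero (by rintro rfl; exact hn0 (mul_zero p))
      have hlt : m < p * m := by
        have := Nat.mul_lt_mul_of_pos_right hpp.one_lt hm0
        rwa [one_mul] at this
      have e1 := h.rel p hpp hpN m
      have e2 := h'.rel p hpp hpN m
      have e3 : s m = s' m := ih m hlt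
      have e4 : (if p ∣ m then s (m / p) else 0) = (if p ∣ m then s' (m / p) else 0) := by
        by_cases hd : p ∣ m
        · rw [if_pos hd, if_pos hd]
          exact ih _ (lt_of_le_of_lt (Nat.div_le_self m p) hlt)
        · rw [if_neg hd, if_neg hd]
      have e5 : s (p * m) = s p * s m - e p * (if p ∣ m then s (m / p) else 0) := by
        rw [← e1]; ring
      have e6 : s' (p * m) = s' p * s' m - e p * (if p ∣ m then s' (m / p) else 0) := by
        rw [← e2]; ring
      rw [e5, e6, e3, e4, hp p hpp hpN]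
    · rw [h.supp n hc, h'.supp n hc]

/-- the formal Hecke operator on sequences. -/
def seqT (e : ℕ → ℂ) (p : ℕ) : (ℕ → ℂ) →ₗ[ℂ] (ℕ → ℂ) where
  toFun g n := g (p * n) + e p * (if p ∣ n then g (n / p) else 0)
  map_add' g g' := by
    funext n
    simp only [Pi.add_apply]
    split_ifs <;> ring
  map_smul' c g := by
    funext n
    simp only [Pi.smul_apply, smul_eq_mul, RingHom.id_apply]
    split_ifs <;> ring

theorem seqT_apply_of_isHeckeSeq {N : ℕ} {e s : ℕ → ℂ} (h : IsHeckeSeq N e s) {p : ℕ} (hp : p.Prime)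
    (hpN : ¬ p ∣ N) : seqT e p s = s p • s := by
  funext n
  exact h.rel p hp hpN n

end Fermat.Agent.S48.Alg
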