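import Fermat.Agent.S48.Alg.Shift

/-!
# S48 / ALG, leaf TW: additive shifts and twists by functions mod `N`
-/

set_option autoImplicit false

open UpperHalfPlane ModularForm CongruenceSubgroup ModularFormClass
open scoped ModularForm MatrixGroups

namespace Fermat.Agent.S48.Alg

variable {N : ℕ} [NeZero N]

/-- `qCoeff` of a finite linear combination of cusp forms. -/
theorem Twist_qCoeff_sum {M : ℕ} [NeZero M] {k : ℤ} {κ : Type*} (s : Finset κ) (c : κ → ℂ)
    (F : κ → CuspForm (Gamma1 M) k) (n : ℕ) :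
    qCoeff (⇑(∑ b ∈ s, c b • F b)) n = ∑ b ∈ s, c b * qCoeff (F b) n := by
  classical
  induction s using Finset.induction_on with
  | empty =>
    rw [Finset.sum_empty, Finset.sum_empty]
    have := HK.qCoeff_smul (0 : ℂ) (0 : CuspForm (Gamma1 M) k) n
    rwa [zero_smul, zero_mul] at this
  | insert a s ha ih =>
    rw [Finset.sum_insert ha, Finset.sum_insert ha, HK.qCoeff_add, HK.qCoeff_smul, ih]

/-- (TW2) twist by an arbitrary function mod `N`: `F := ∑_b c_b • F_b` with `c = N⁻¹ • 𝓕 φ (-·)` i.e. Fourier inversion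
on `ZMod N` (`ZMod.dft`, `ZMod.invDFT_apply`, `ZMod.dft_dft`/`ZMod.invDFT_def`), `HK.qCoeff_add`, `HK.qCoeff_smul`
(induction over the `Finset.sum`: first prove `qCoeff (∑ …) = ∑ qCoeff …`). -/
theorem exists_twist {k : ℤ} (f : CuspForm (Gamma1 N) k) (φ : ZMod N → ℂ) :
    ∃ F : CuspForm (Gamma1 (N ^ 2)) k, ∀ n : ℕ, qCoeff F n = φ (n : ZMod N) * qCoeff f n := by
  choose Fb hFb using exists_shift f
  refine ⟨∑ b, ((N : ℂ)⁻¹ * ZMod.dft φ b) • Fb b, fun n => ?_⟩
  rw [Twist_qCoeff_sum]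
  have hinv : φ (n : ZMod N) =
      (N : ℂ)⁻¹ • ∑ j, ZMod.stdAddChar (j * (n : ZMod N)) • ZMod.dft φ j := by
    rw [← ZMod.invDFT_apply, LinearEquiv.symm_apply_apply]
  rw [hinv, smul_eq_mul, Finset.mul_sum, Finset.sum_mul]
  refine Finset.sum_congr rfl fun b _ => ?_
  rw [hFb, smul_eq_mul]
  ring

/-- (TW3) depletion (`φ` = indicator of the units, `ZMod.isUnit_iff_coprime`). -/
theorem exists_depl {k : ℤ} (f : CuspForm (Gamma1 N) k) :
    ∃ F : CuspForm (Gamma1 (N ^ 2)) k, ∀ n : ℕ,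
      qCoeff F n = if n.Coprime N then qCoeff f n else 0 := by
  classical
  obtain ⟨F, hF⟩ := exists_twist f (fun x => if IsUnit x then 1 else 0)
  refine ⟨F, fun n => ?_⟩
  rw [hF]
  by_cases h : n.Coprime N
  · rw [if_pos h, if_pos ((ZMod.isUnit_iff_coprime n N).mpr h), one_mul]
  · rw [if_neg h, if_neg (fun h' => h ((ZMod.isUnit_iff_coprime n N).mp h')), zero_mul]

end Fermat.Agent.S48.Alg
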