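import Fermat.Agent.S48.Contracts
import Fermat.Agent.S48.Alg.Twist
import Fermat.Agent.S48.Alg.HeckeSeq

/-!
# S48 / ALG, leaf DP: depletion of weight one data
-/

set_option autoImplicit false

open UpperHalfPlane ModularForm CongruenceSubgroup ModularFormClass
open scoped ModularForm MatrixGroups

namespace Fermat.Agent.S48.Alg

open Fermat.Agent.S48.Rankin

variable {N : ℕ} [NeZero N]

/-- (DP) Depleted data of level `N²`.  `f'` from `exists_depl D.f`; character
`ε' := DirichletCharacter.changeLevel (Dvd.intro_left _ (sq N).symm …) D.ε` (`N ∣ N²`); for a prime `p ∤ N` the class of `p`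
is a unit mod `N²` and `ε' p = ε p` (`DirichletCharacter.changeLevel_eq_cast_of_dvd`, `ZMod.cast_natCast`).
`p ∣ N² ↔ p ∣ N` (`Nat.Prime.dvd_of_dvd_pow`).  The Hecke relations for `depl N a` are `isHeckeSeq_depl`
(with `a 0 = 0` by `HK.qCoeff_zero_cusp`). -/
theorem exists_depletion (D : W1Data N) :
    ∃ D' : W1Data (N ^ 2),
      (∀ n : ℕ, qCoeff D'.f n = if n.Coprime N then qCoeff D.f n else 0) ∧
      ∀ p : ℕ, p.Prime → ¬ p ∣ N → D'.ε (p : ZMod (N ^ 2)) = D.ε (p : ZMod N) := by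
  obtain ⟨f', hf'⟩ := exists_depl D.f
  have hdvd : N ∣ N ^ 2 := Dvd.intro_left N (sq N).symm
  have hε : ∀ p : ℕ, p.Prime → ¬ p ∣ N →
      DirichletCharacter.changeLevel hdvd D.ε (p : ZMod (N ^ 2)) = D.ε (p : ZMod N) := by
    intro p hp hpN
    have hcop : IsCoprime (p : ℤ) ((N ^ 2 : ℕ) : ℤ) := by
      rw [Nat.isCoprime_iff_coprime]
      exact Nat.Coprime.pow_right 2 ((Nat.Prime.coprime_iff_not_dvd hp).2 hpN)
    have := DirichletCharacter.changeLevel_eq_cast_of_dvd' D.ε hdvd hcop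
    simpa using this
  have hseq : IsHeckeSeq N (fun p => D.ε (p : ZMod N)) (depl N (fun n => qCoeff D.f n)) :=
    isHeckeSeq_depl (HK.qCoeff_zero_cusp D.f) D.one D.hecke
  have hq : ∀ n, qCoeff f' n = depl N (fun n => qCoeff D.f n) n := hf'
  refine ⟨⟨DirichletCharacter.changeLevel hdvd D.ε, f', ?_, ?_⟩, hf', hε⟩
  · rw [hq]
    exact hseq.one
  · intro p hp hpN2 n
    have hpN : ¬ p ∣ N := fun h => hpN2 (h.trans hdvd)
    rw [hε p hp hpN]
    simp only [hq]
    exact hseq.rel p hp hpN n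

end Fermat.Agent.S48.Alg
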