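import Fermat.Agent.S48.Alg.Good
import Fermat.Agent.S48.Alg.Depl

/-!
# S48 / ALG: the contract `StmtAlg`
-/

set_option autoImplicit false

open UpperHalfPlane ModularForm CongruenceSubgroup ModularFormClass
open scoped ModularForm MatrixGroups

namespace Fermat.Agent.S48.Alg

/-- **Contract ALG.** -/
theorem stmtAlg : StmtAlg := by
  intro N _ D
  obtain ⟨D', hq, hε⟩ := exists_depletion D
  refine ⟨N ^ 2, inferInstance, D', ?_, ?_, ?_⟩
  · apply W1Data.good_of_supp
    intro n hn
    rw [hq, if_neg]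
    intro h
    exact hn (Nat.Coprime.pow_right 2 h)
  · intro p hp
    exact ⟨fun h => hp.dvd_of_dvd_pow h, fun h => Dvd.dvd.trans h (dvd_pow_self N two_ne_zero)⟩
  · intro p hp hpN
    refine ⟨?_, hε p hp hpN⟩
    rw [hq, if_pos ((Nat.Prime.coprime_iff_not_dvd hp).mpr hpN)]

end Fermat.Agent.S48.Alg
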