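import Fermat.Agent.S48.Alg.HeckeSeq

/-!
# S48 / ALG, leaf D: normalised Hecke sequences (fixed character) are linearly independent
-/

set_option autoImplicit false

namespace Fermat.Agent.S48.Alg

open Fermat.Agent.S48.Rankin

/-- the multiplicative character of the free monoid on the primes `p ∤ N` attached to a sequence. -/
noncomputable def Dedekind_lam (N : ℕ) (s : ℕ → ℂ) :
    FreeMonoid {p : ℕ // p.Prime ∧ ¬ p ∣ N} →* ℂ :=
  FreeMonoid.lift (fun p => s p.1)

/-- the composite of the formal Hecke operators along a word. -/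
noncomputable def Dedekind_op (N : ℕ) (e : ℕ → ℂ) :
    List {p : ℕ // p.Prime ∧ ¬ p ∣ N} → ((ℕ → ℂ) →ₗ[ℂ] (ℕ → ℂ))
  | [] => LinearMap.id
  | p :: w => Dedekind_op N e w ∘ₗ seqT e p.1

theorem Dedekind_op_apply {N : ℕ} {e s : ℕ → ℂ} (h : IsHeckeSeq N e s)
    (w : List {p : ℕ // p.Prime ∧ ¬ p ∣ N}) :
    Dedekind_op N e w s = Dedekind_lam N s (FreeMonoid.ofList w) • s := by
  induction w with
  | nil =>
    change s = Dedekind_lam N s 1 • s
    rw [map_one, one_smul]
  | cons p w ih =>
    change Dedekind_op N e w (seqT e p.1 s) = _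
    rw [seqT_apply_of_isHeckeSeq h p.2.1 p.2.2, map_smul, ih, smul_smul]
    congr 1
    have : FreeMonoid.ofList (p :: w) = FreeMonoid.of p * FreeMonoid.ofList w := rfl
    rw [this, map_mul]
    congr 1

/-- (D2) **Dedekind independence.**  Proof: let `G = FreeMonoid {p // p.Prime ∧ ¬ p ∣ N}` and
`λ_s = FreeMonoid.lift (fun p => s p) : G →* ℂ`.  `s ↦ λ_s` is injective by `IsHeckeSeq.ext`.  If
`∑ c_i s_i = 0` then applying `seqT e p₁`, …, `seqT e p_r` (`seqT_apply_of_isHeckeSeq`) and evaluating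
at `n = 1` gives `∑ c_i λ_{s_i}(p₁ ⋯ p_r) = 0` for every word; conclude with
`linearIndependent_monoidHom G ℂ` (composed with the injection `s ↦ λ_s`:
`LinearIndependent.comp`).  (`linearIndependent_iff'` on both sides.) -/
theorem linearIndependent_heckeSeq (N : ℕ) (e : ℕ → ℂ) :
    LinearIndependent ℂ (fun s : {s : ℕ → ℂ // IsHeckeSeq N e s} => (s : ℕ → ℂ)) := by
  have hinj : Function.Injective
      (fun s : {s : ℕ → ℂ // IsHeckeSeq N e s} => Dedekind_lam N s.1) := by
    intro s s' hss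
    apply Subtype.ext
    apply s.2.ext s'.2
    intro p hp hpN
    have := congrArg (fun f : FreeMonoid {p : ℕ // p.Prime ∧ ¬ p ∣ N} →* ℂ =>
      f (FreeMonoid.of ⟨p, hp, hpN⟩)) hss
    simpa [Dedekind_lam] using this
  have hli := (linearIndependent_monoidHom (FreeMonoid {p : ℕ // p.Prime ∧ ¬ p ∣ N}) ℂ).comp _ hinj
  rw [linearIndependent_iff'] at hli ⊢
  intro t c hc i hi
  refine hli t c ?_ i hi
  funext w
  have h1 := congrArg (fun g => Dedekind_op N e (FreeMonoid.toList w) g 1) hc
  simp only [map_sum, map_smul, map_zero, Pi.zero_apply] at h1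
  rw [Finset.sum_apply] at h1 ⊢
  rw [Pi.zero_apply, ← h1]
  refine Finset.sum_congr rfl fun s _ => ?_
  rw [Dedekind_op_apply s.2]
  simp only [Pi.smul_apply, smul_eq_mul, Function.comp_apply, s.2.one, mul_one]
  rfl

/-- (D3) Finitely many Hecke sequences in a finite dimensional space, for finitely many characters.
(`LinearIndependent` families with values in a finite dimensional subspace are finite:
restrict the family to the subtype of those `s ∈ W`, `LinearIndependent.comp`, corestrict to `W`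
(`LinearIndependent.of_comp W.subtype`), `LinearIndependent.finite` /
`Module.Finite.finite_of_linearIndependent`; finite union over `E`.) -/
theorem finite_heckeSeq_mem (N : ℕ) (W : Submodule ℂ (ℕ → ℂ)) [FiniteDimensional ℂ W]
    (E : Set (ℕ → ℂ)) (hE : E.Finite) :
    {s : ℕ → ℂ | s ∈ W ∧ ∃ e ∈ E, IsHeckeSeq N e s}.Finite := by
  have h1 : ∀ e : ℕ → ℂ, {s : ℕ → ℂ | s ∈ W ∧ IsHeckeSeq N e s}.Finite := by
    intro e
    let ι := {s : ℕ → ℂ // s ∈ W ∧ IsHeckeSeq N e s}
    let f : ι → {s : ℕ → ℂ // IsHeckeSeq N e s} := fun s => ⟨s.1, s.2.2⟩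
    have hf : Function.Injective f := fun s s' h => Subtype.ext (congrArg (fun x => x.1) h)
    have hli := (linearIndependent_heckeSeq N e).comp f hf
    let g : ι → W := fun s => ⟨s.1, s.2.1⟩
    have hli' : LinearIndependent ℂ g := LinearIndependent.of_comp W.subtype hli
    have hfin : Finite ι := hli'.finite
    exact Set.finite_coe_iff.mp hfin
  have h2 : {s : ℕ → ℂ | s ∈ W ∧ ∃ e ∈ E, IsHeckeSeq N e s} =
      ⋃ e ∈ E, {s : ℕ → ℂ | s ∈ W ∧ IsHeckeSeq N e s} := by
    ext s
    simp only [Set.mem_ofPred_eq, Set.mem_iUnion, exists_prop]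
    constructor
    · rintro ⟨hs, e, he, h⟩
      exact ⟨e, he, hs, h⟩
    · rintro ⟨e, he, hs, h⟩
      exact ⟨hs, e, he, h⟩
  rw [h2]
  exact hE.biUnion fun e _ => h1 e

end Fermat.Agent.S48.Alg
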