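import Fermat.Agent.GAL.Tors.TwistedEis

/-!
# S48 / ALG, leaf T2: `q`-expansion of the Eisenstein type series `∑ g(c) (c z + d)^(-k)`
-/

set_option autoImplicit false

open UpperHalfPlane ModularForm EisensteinSeries Complex Real
open scoped MatrixGroups Nat
open Fermat.Agent.GAL.Tors.TwistedEis

namespace Fermat.Agent.S48.Alg

noncomputable section

/-- the divisor sum `∑_{r ∣ n} r^(k-1) (g(n/r) + (-1)^k g(-n/r))`  (`= 0` for `n = 0`). -/
def fstCoeff (g : ℤ → ℂ) (k : ℕ) (n : ℕ) : ℂ :=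
  ∑ r ∈ n.divisors, (r : ℂ) ^ (k - 1) * (g ((n / r : ℕ) : ℤ) + (-1) ^ k * g (-((n / r : ℕ) : ℤ)))

/-- regrouping of a double series according to the product of the indices. -/
theorem EisFst_hasSum_regroup (G : ℕ → ℂ) (D : ℝ) (hG : ∀ c, ‖G c‖ ≤ D) (m : ℕ) {q : ℂ}
    (hq : ‖q‖ < 1) :
    HasSum (fun n : ℕ => (∑ r ∈ n.divisors, (r : ℂ) ^ m * G (n / r)) * q ^ n)
      (∑' c : ℕ+, G c * ∑' r : ℕ+, (r : ℂ) ^ m * q ^ ((c : ℕ) * r)) := by
  let F : ℕ+ × ℕ+ → ℂ := fun p => G p.1 * ((p.2 : ℂ) ^ m * q ^ ((p.1 : ℕ) * p.2))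
  have hF : Summable F := by
    refine Summable.of_norm_bounded
      (g := fun p : ℕ+ × ℕ+ => D * ‖((p.2 : ℂ) ^ m * q ^ ((p.1 : ℕ) * p.2))‖)
      ((summable_prod_mul_pow m hq).norm.mul_left D) ?_
    intro p
    simp only [F]
    rw [norm_mul]
    exact mul_le_mul_of_nonneg_right (hG _) (norm_nonneg _)
  have hS : (∑' c : ℕ+, G c * ∑' r : ℕ+, (r : ℂ) ^ m * q ^ ((c : ℕ) * r)) = ∑' p, F p := by
    rw [hF.tsum_prod]
    refine tsum_congr fun c => ?_
    rw [← tsum_mul_left]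
  rw [hS]
  have h1 : HasSum (F ∘ sigmaAntidiagonalEquivProd) (∑' p, F p) :=
    (sigmaAntidiagonalEquivProd.hasSum_iff).2 hF.hasSum
  have h2 := h1.sigma (fun b => hasSum_fintype _)
  have h3 : ∀ b : ℕ+, (∑ x : Nat.divisorsAntidiagonal (b : ℕ),
      (F ∘ sigmaAntidiagonalEquivProd) ⟨b, x⟩) =
      (∑ r ∈ (b : ℕ).divisors, (r : ℂ) ^ m * G ((b : ℕ) / r)) * q ^ (b : ℕ) := by
    intro b
    have e1 : ∀ x : Nat.divisorsAntidiagonal (b : ℕ), (F ∘ sigmaAntidiagonalEquivProd) ⟨b, x⟩ =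
        ((x.1.2 : ℂ) ^ m * G x.1.1) * q ^ (b : ℕ) := by
      intro x
      have hx := (Nat.mem_divisorsAntidiagonal.1 x.2).1
      simp only [F, Function.comp, sigmaAntidiagonalEquivProd, divisorsAntidiagonalFactors,
        Equiv.coe_fn_mk, PNat.mk_coe]
      rw [hx]
      ring
    rw [Finset.sum_congr rfl (fun x _ => e1 x), Finset.univ_eq_attach,
      (b : ℕ).divisorsAntidiagonal.sum_attach
        (fun x : ℕ × ℕ => ((x.2 : ℂ) ^ m * G x.1) * q ^ (b : ℕ)),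
      Nat.sum_divisorsAntidiagonal' (fun x y => ((y : ℂ) ^ m * G x) * q ^ (b : ℕ)),
      Finset.sum_mul]
  simp only [h3] at h2
  have h4 := (hasSum_pnat_iff
    (f := fun n : ℕ => (∑ r ∈ n.divisors, (r : ℂ) ^ m * G (n / r)) * q ^ n)).1 h2
  simpa using h4

theorem EisFst_inner {k : ℕ} (hk : 3 ≤ k) (z : ℍ) (c : ℕ+) :
    ∑' d : ℤ, eisSummand k ![((c : ℕ) : ℤ), d] z =
      ((-2 * π * Complex.I) ^ k / (k - 1)! : ℂ) *
        ∑' r : ℕ+, (r : ℂ) ^ (k - 1) * cexp (2 * π * Complex.I * z) ^ ((c : ℕ) * r) := by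
  have H := qExpansion_identity_pnat (k := k - 1) (by omega) ⟨c * z, by simpa using z.2⟩
  rw [show k - 1 + 1 = k by omega] at H
  have e1 : ∀ d : ℤ, eisSummand k ![((c : ℕ) : ℤ), d] z =
      1 / (((⟨c * z, by simpa using z.2⟩ : ℍ) : ℂ) + d) ^ k := by
    intro d
    simp [eisSummand]
  rw [tsum_congr e1, H]
  congr 1
  refine tsum_congr fun r => ?_
  congr 1
  rw [← Complex.exp_nat_mul, ← Complex.exp_nat_mul]
  congr 1
  push_cast
  ring

theorem EisFst_inner_neg (k : ℕ) (z : ℍ) (c : ℤ) :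
    ∑' d : ℤ, eisSummand k ![-c, d] z = (-1) ^ k * ∑' d : ℤ, eisSummand k ![c, d] z := by
  rw [← tsum_mul_left, ← tsum_comp_neg]
  refine tsum_congr fun d => ?_
  simp only [eisSummand, Matrix.cons_val_zero, Matrix.cons_val_one, Int.cast_neg]
  have e : (-(c : ℂ) * (z : ℂ) + -(d : ℂ)) = (-1) * ((c : ℂ) * z + d) := by ring
  rw [e, mul_zpow]
  congr 1
  rw [zpow_neg, zpow_natCast, ← inv_pow]
  norm_num

/-- **`q`-expansion.**  For bounded `g : ℤ → ℂ` with `g 0 = 0` and `k ≥ 3`: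
`∑_{(c,d)} g(c) (c z + d)^(-k) = ((-2πi)^k/(k-1)!) ∑_{n ≥ 1} fstCoeff g k n q^n`.

Proof (copy the structure of Mathlib's `tsum_eisSummand_eq_tsum_sigma_mul_cexp_pow`,
`Mathlib/NumberTheory/ModularForms/EisensteinSeries/QExpansion.lean`):
* `gEis` is a sum over `Fin 2 → ℤ`; pass to `ℤ × ℤ` (`finTwoArrowEquiv`), `Summable.tsum_prod`
  (summability: `summable_gEis`), so `gEis = ∑' c, g c * ∑' d, (c z + d)^(-k)`;
* the term `c = 0` vanishes (`h0`); split `ℤ` into `ℕ+`, `0`, `-ℕ+`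
  (`tsum_int_eq_zero_add_tsum_pnat` or `HasSum.int_rec`/`tsum_of_nat_of_neg_add_one`);
  for `c = -c'`: `(-c' z + d)^(-k) = (-1)^k (c' z - d)^(-k)`, reindex `d ↦ -d`;
* `EisensteinSeries.qExpansion_identity_pnat (k := k - 1)` at the point `c' • z`;
* regroup the double sum over `(c', r) : ℕ+ × ℕ+` according to `n = c' r`
  (`sigmaAntidiagonalEquivProd`, as in Mathlib's `tsum_prod_pow_eq_tsum_sigma`); absolute summability of
  `r^(k-1) ‖q‖^(c' r)` is in the same Mathlib file (`summable_prod_mul_pow`);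
* finally go from `ℕ+` to `ℕ` (`fstCoeff g k 0 = 0`) and from `tsum` to `HasSum`. -/
theorem hasSum_gEis_fst {g : ℤ → ℂ} {C : ℝ} (hg : ∀ c, ‖g c‖ ≤ C) (h0 : g 0 = 0) {k : ℕ} (hk : 3 ≤ k)
    (z : ℍ) :
    HasSum (fun n : ℕ => (((-2 * π * Complex.I) ^ k / (k - 1)! : ℂ) * fstCoeff g k n) •
        Function.Periodic.qParam 1 z ^ n)
      (gEis (fun v => g (v 0)) k z) := by
  set q : ℂ := cexp (2 * π * Complex.I * z) with hq
  have hqn : ‖q‖ < 1 := norm_exp_two_pi_I_lt_one z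
  have hqp : Function.Periodic.qParam 1 z = q := by simp [Function.Periodic.qParam, hq]
  set A : ℂ := (-2 * π * Complex.I) ^ k / (k - 1)! with hA
  have hs : Summable fun x : ℤ × ℤ => g x.1 * eisSummand k ![x.1, x.2] z := by
    have h1 := summable_gEis (a := fun v => g (v 0)) (C := C) (k := k) (fun v => hg _)
      (by exact_mod_cast hk) z
    have h2 := ((finTwoArrowEquiv ℤ).symm.summable_iff).2 h1
    simpa [Function.comp_def] using h2
  have hE : gEis (fun v => g (v 0)) k z =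
      A * ((∑' c : ℕ+, g ((c : ℕ) : ℤ) * ∑' r : ℕ+, (r : ℂ) ^ (k - 1) * q ^ ((c : ℕ) * r)) +
        ∑' c : ℕ+, ((-1) ^ k * g (-((c : ℕ) : ℤ))) *
          ∑' r : ℕ+, (r : ℂ) ^ (k - 1) * q ^ ((c : ℕ) * r)) := by
    unfold gEis
    rw [← (finTwoArrowEquiv ℤ).symm.tsum_eq]
    have e0 : ∀ x : ℤ × ℤ, g (((finTwoArrowEquiv ℤ).symm x) 0) *
        eisSummand k ((finTwoArrowEquiv ℤ).symm x) z = g x.1 * eisSummand k ![x.1, x.2] z := by
      intro x
      simp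
    rw [tsum_congr e0, hs.tsum_prod, tsum_int_eq_zero_add_tsum_pnat hs.prod]
    simp only [h0, zero_mul, tsum_zero, zero_add]
    rw [mul_add, ← tsum_mul_left, ← tsum_mul_left]
    congr 1
    · refine tsum_congr fun c => ?_
      rw [tsum_mul_left]
      rw [EisFst_inner hk z c]
      ring
    · refine tsum_congr fun c => ?_
      rw [tsum_mul_left, EisFst_inner_neg, EisFst_inner hk z c]
      ring
  rw [hE, hqp]
  have H1 := EisFst_hasSum_regroup (fun c => g (c : ℤ)) C (fun c => hg _) (k - 1) hqn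
  have H2 := EisFst_hasSum_regroup (fun c => (-1) ^ k * g (-(c : ℤ))) C
    (fun c => by rw [norm_mul, norm_pow, norm_neg, norm_one, one_pow, one_mul]; exact hg _)
    (k - 1) hqn
  have H3 := (H1.add H2).mul_left A
  have hfun : (fun n : ℕ => (A * fstCoeff g k n) • q ^ n) = fun i : ℕ => A *
        ((∑ r ∈ i.divisors, (r : ℂ) ^ (k - 1) * g ((i / r : ℕ) : ℤ)) * q ^ i +
          (∑ r ∈ i.divisors, (r : ℂ) ^ (k - 1) * ((-1) ^ k * g (-((i / r : ℕ) : ℤ)))) * q ^ i) := by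
    funext n
    unfold fstCoeff
    rw [smul_eq_mul, ← add_mul, ← Finset.sum_add_distrib, mul_assoc]
    congr 2
    refine Finset.sum_congr rfl fun r _ => ?_
    ring
  rw [hfun]
  exact H3

end

end Fermat.Agent.S48.Alg
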