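import Fermat.Agent.Lib.IS.FixedField

/-!
# S48 / ALG, leaf F: a sequence of algebraic numbers with finite `Aut(ℂ)`-orbit lies in a number field
-/

set_option autoImplicit false

namespace Fermat.Agent.S48.Alg

/-- (F1) Relative fixed field.  Let `Ω := algebraicClosure L₀ ℂ` (an `IntermediateField L₀ ℂ`); it is algebraically
closed, so `Ω / L₀` is Galois (char. 0).  `x ∈ Ω`.  If `x ∉ L₀` there is `τ : Ω ≃ₐ[L₀] Ω` moving `x`
(`IsGalois.mem_bot_iff_fixed` / `IsGalois.fixedField_top`, `IntermediateField.mem_fixedField_iff`), and `τ` extends to a ring automorphism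
of `ℂ` by `Fermat.Agent.Lib.IS.exists_ringEquiv_extending`.  (This is the proof of
`Lib.IS.exists_ringEquiv_ne_of_isAlgebraic` with `ℚ` replaced by `L₀`.) -/
theorem mem_of_forall_ringEquiv_fixing (L₀ : IntermediateField ℚ ℂ) {x : ℂ} (hx : IsAlgebraic ℚ x)
    (h : ∀ σ : ℂ ≃+* ℂ, (∀ y ∈ L₀, σ y = y) → σ x = x) : x ∈ L₀ := by
  by_contra hxL
  have hx' : IsAlgebraic L₀ x := hx.tower_top L₀
  have hxF : x ∈ algebraicClosure L₀ ℂ := (mem_algebraicClosure_iff).mpr hx'
  have hnot : (⟨x, hxF⟩ : algebraicClosure L₀ ℂ) ∉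
      Set.range (algebraMap L₀ (algebraicClosure L₀ ℂ)) := by
    rintro ⟨q, hq⟩
    apply hxL
    have := congrArg (algebraMap (algebraicClosure L₀ ℂ) ℂ) hq
    have h2 : (q : ℂ) = x := this
    rw [← h2]
    exact q.2
  have : IsGalois L₀ (algebraicClosure L₀ ℂ) :=
    @IsAlgClosure.isGalois L₀ (algebraicClosure L₀ ℂ) _ _ _ (algebraicClosure.isAlgClosure L₀ ℂ) _
  rw [InfiniteGalois.mem_range_algebraMap_iff_fixed] at hnot
  obtain ⟨τ, hτ⟩ := not_forall.mp hnot
  obtain ⟨σ, hσ⟩ := Fermat.Agent.Lib.IS.exists_ringEquiv_extending (K := ℂ) τ.toRingEquiv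
  apply hτ
  have hfix : ∀ y ∈ L₀, σ y = y := by
    intro y hy
    have h1 := hσ (algebraMap L₀ (algebraicClosure L₀ ℂ) ⟨y, hy⟩)
    have h2 : τ.toRingEquiv (algebraMap L₀ (algebraicClosure L₀ ℂ) ⟨y, hy⟩) =
        algebraMap L₀ (algebraicClosure L₀ ℂ) ⟨y, hy⟩ := τ.commutes _
    rw [h2] at h1
    exact h1
  have h3 := hσ ⟨x, hxF⟩
  change σ x = _ at h3
  rw [h σ hfix] at h3
  apply Subtype.ext
  exact h3.symm

/-- (F2) a finite set of sequences is separated by finitely many indices (for each pair `s ≠ s'` choose an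
index; `Set.Finite.induction_on` or take the image of the finite set of pairs `(s, s')`). -/
theorem exists_separating_finset {𝒪 : Set (ℕ → ℂ)} (h𝒪 : 𝒪.Finite) :
    ∃ I : Finset ℕ, ∀ s ∈ 𝒪, ∀ s' ∈ 𝒪, (∀ n ∈ I, s n = s' n) → s = s' := by
  classical
  have hfin : (𝒪 ×ˢ 𝒪).Finite := h𝒪.prod h𝒪
  let idx : (ℕ → ℂ) × (ℕ → ℂ) → ℕ := fun p => if h : ∃ n, p.1 n ≠ p.2 n then h.choose else 0
  refine ⟨hfin.toFinset.image idx, fun s hs s' hs' hI => ?_⟩
  by_contra hne
  have hex : ∃ n, s n ≠ s' n := by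
    by_contra hcon
    push Not at hcon
    exact hne (funext hcon)
  have hmem : idx (s, s') ∈ hfin.toFinset.image idx :=
    Finset.mem_image_of_mem _ (hfin.mem_toFinset.2 ⟨hs, hs'⟩)
  have h1 := hI _ hmem
  have h2 : idx (s, s') = hex.choose := dif_pos hex
  rw [h2] at h1
  exact hex.choose_spec h1

/-- (F3) `L := ℚ(a_n : n ∈ I)` (`IntermediateField.adjoin ℚ (a '' I)`), finite dimensional by
`IntermediateField.finiteDimensional_adjoin` (finitely many integral generators).  If `σ` fixes `L` pointwise then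
`σ ∘ a` and `a = id ∘ a` are two elements of the orbit which agree on `I`, so `σ (a m) = a m` for all `m`; (F1). -/
theorem exists_numberField_of_finite_orbit (a : ℕ → ℂ) (hint : ∀ n, IsIntegral ℤ (a n))
    (horb : (Set.range fun σ : ℂ ≃+* ℂ => fun n => σ (a n)).Finite) :
    ∃ L : IntermediateField ℚ ℂ, FiniteDimensional ℚ L ∧ ∀ n, a n ∈ L := by
  classical
  obtain ⟨I, hI⟩ := exists_separating_finset horb
  have hintQ : ∀ n, IsIntegral ℚ (a n) := fun n => (hint n).tower_top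
  have hfinS : Finite (a '' (I : Set ℕ)) := (I.finite_toSet.image a).to_subtype
  refine ⟨IntermediateField.adjoin ℚ (a '' (I : Set ℕ)), ?_, fun m => ?_⟩
  · apply IntermediateField.finiteDimensional_adjoin
    rintro _ ⟨n, -, rfl⟩
    exact hintQ n
  · apply mem_of_forall_ringEquiv_fixing _ (hintQ m).isAlgebraic
    intro σ hσ
    have h1 : (fun n => σ (a n)) = fun n => a n := by
      apply hI _ ⟨σ, rfl⟩ _ ⟨RingEquiv.refl ℂ, rfl⟩
      intro n hn
      exact hσ _ (IntermediateField.subset_adjoin _ _ ⟨n, hn, rfl⟩)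
    exact congrFun h1 m

end Fermat.Agent.S48.Alg
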