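import Fermat.Agent.S48.Alg.Theta1Def
import Fermat.Agent.S48.Alg.EisFst

/-! # S48 / ALG, leaf T2': the `q`-expansion of `θ₁` is integral -/

set_option autoImplicit false

open UpperHalfPlane ModularForm EisensteinSeries Complex Real CongruenceSubgroup Matrix Filter Topology
open scoped MatrixGroups Nat Manifold
open Fermat.Agent.GAL.Tors.TwistedEis

namespace Fermat.Agent.S48.Alg

noncomputable section

/-- the integral coefficients of `θ₁`. -/
def Theta1Q_coeff (N n : ℕ) : ℤ :=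
  ∑ r ∈ n.divisors, (r : ℤ) ^ 2 *
    ((if (((n / r : ℕ) : ℤ) : ZMod N) = 1 then 1 else 0) -
      (if ((-((n / r : ℕ) : ℤ) : ℤ) : ZMod N) = 1 then 1 else 0))

theorem Theta1Q_fstCoeff (N n : ℕ) : fstCoeff (ind1 N) 3 n = ((Theta1Q_coeff N n : ℤ) : ℂ) := by
  unfold fstCoeff Theta1Q_coeff ind1
  rw [Int.cast_sum]
  refine Finset.sum_congr rfl fun r _ => ?_
  split_ifs <;> push_cast <;> ring

theorem Theta1Q_hasSum (N : ℕ) [NeZero N] (hN : 2 ≤ N) (τ : ℍ) :
    HasSum (fun m : ℕ => ((Theta1Q_coeff N m : ℤ) : ℂ) • Function.Periodic.qParam 1 τ ^ m)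
      (theta1 N τ) := by
  have : Fact (1 < N) := ⟨by omega⟩
  have h0 : ind1 N 0 = 0 := by
    unfold ind1
    rw [if_neg]
    simp
  have h := hasSum_gEis_fst (g := ind1 N) (C := 1) (norm_ind1_le N) h0 (k := 3) le_rfl τ
  have h2 := h.mul_left cst3⁻¹
  rw [theta1_apply]
  have e : (fun m : ℕ => ((Theta1Q_coeff N m : ℤ) : ℂ) • Function.Periodic.qParam 1 τ ^ m) =
      fun i => cst3⁻¹ * (((-2 * π * Complex.I) ^ 3 / (3 - 1)! : ℂ) * fstCoeff (ind1 N) 3 i) •
        Function.Periodic.qParam 1 (τ : ℂ) ^ i := by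
    funext m
    have hc := cst3_ne_zero
    have e1 : ((-2 * π * Complex.I) ^ 3 / (3 - 1)! : ℂ) = cst3 := rfl
    rw [Theta1Q_fstCoeff, smul_eq_mul, smul_eq_mul, e1, ← mul_assoc, ← mul_assoc,
      inv_mul_cancel₀ hc, one_mul]
  rw [e]
  exact h2

/-- (T2) integral `q`-expansion (`hasSum_gEis_fst` with `g = ind1 N`, `ind1 N 0 = 0` since `N ≠ 1`;
`ModularFormClass.qExpansion_coeff_unique`; `fstCoeff (ind1 N) 3 n` is the cast of the integer
`∑_{r ∣ n} r² ([n/r ≡ 1] - [n/r ≡ -1])`). -/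
theorem theta1_int (N : ℕ) [NeZero N] (hN : 2 ≤ N) :
    ∃ Q : PowerSeries ℤ, Q.map (Int.castRingHom ℂ) = qExpansion 1 (theta1 N) := by
  refine ⟨PowerSeries.mk (Theta1Q_coeff N), ?_⟩
  ext n
  rw [PowerSeries.coeff_map, PowerSeries.coeff_mk]
  have hper : (1 : ℝ) ∈ (Gamma1 N : Subgroup (GL (Fin 2) ℝ)).strictPeriods := by simp
  exact ModularFormClass.qExpansion_coeff_unique one_pos hper (Theta1Q_hasSum N hN) n

end

end Fermat.Agent.S48.Alg
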