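import Fermat.Agent.S48.Alg.Theta1Lim

/-! # S48 / ALG, leaf T4: the stabiliser of `θ₁` is `Γ₁(N)` -/

set_option autoImplicit false

open UpperHalfPlane ModularForm EisensteinSeries Complex Real CongruenceSubgroup Matrix Filter Topology
open scoped MatrixGroups Nat Manifold
open Fermat.Agent.GAL.Tors.TwistedEis

namespace Fermat.Agent.S48.Alg

noncomputable section

/-- (T4) the stabiliser.  If `θ ∣ A = θ` then `θ ∣ (A B) = θ ∣ B` for `B = [[x, 1], [-1, 0]]`; limits:
`κ(A_11 - x A_10) = κ(1)`, so `A_11 - x A_10 = 1` in `ℤ/N` for `x = 0, 1` (`eq_one_of_kap_eq`);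
`A_00 = 1` from `det A = 1`. -/
theorem theta1_stab (N : ℕ) [NeZero N] (hN : 3 ≤ N) (A : SL(2, ℤ))
    (h : (⇑(theta1 N)) ∣[(3 : ℤ)] A = ⇑(theta1 N)) : A ∈ Gamma1 N := by
  have hF : theta1Fun N ∣[(3 : ℤ)] A = theta1Fun N := by
    have h1 : (cst3⁻¹ • theta1Fun N) ∣[(3 : ℤ)] A = cst3⁻¹ • theta1Fun N := h
    rw [ModularForm.SL_smul_slash] at h1
    exact smul_right_injective _ (inv_ne_zero cst3_ne_zero) h1
  have key : ∀ B : SL(2, ℤ), kap N (-(((A * B) 1 0 : ℤ)) : ZMod N) = kap N (-((B 1 0 : ℤ)) : ZMod N) := by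
    intro B
    have h1 := tendsto_theta1Fun_slash N (A * B)
    rw [SlashAction.slash_mul, hF] at h1
    exact tendsto_nhds_unique h1 (tendsto_theta1Fun_slash N B)
  have hx : ∀ x : ℤ, ((A 1 1 : ℤ) : ZMod N) - (x : ZMod N) * ((A 1 0 : ℤ) : ZMod N) = 1 := by
    intro x
    let B : SL(2, ℤ) := ⟨!![x, 1; -1, 0], by simp [Matrix.det_fin_two]⟩
    have h1 := key B
    have e1 : ((A * B) 1 0 : ℤ) = A 1 0 * x + A 1 1 * (-1) := by
      rw [Matrix.SpecialLinearGroup.coe_mul, Matrix.mul_apply, Fin.sum_univ_two]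
      rfl
    have e2 : (B 1 0 : ℤ) = -1 := rfl
    rw [e1, e2] at h1
    have h2 := eq_one_of_kap_eq hN _ (h1.trans (by push_cast; rw [neg_neg]))
    push_cast at h2
    linear_combination h2
  have h11 : ((A 1 1 : ℤ) : ZMod N) = 1 := by
    have := hx 0
    simpa using this
  have h10 : ((A 1 0 : ℤ) : ZMod N) = 0 := by
    have := hx 1
    rw [h11] at this
    simpa using this
  have h00 : ((A 0 0 : ℤ) : ZMod N) = 1 := by
    have hdet := A.det_coe
    rw [Matrix.det_fin_two] at hdet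
    have := congrArg (Int.cast : ℤ → ZMod N) hdet
    push_cast at this
    rw [h11, h10] at this
    simpa using this
  rw [Gamma1_mem]
  exact ⟨h00, h11, h10⟩

/-- (T5) the translates are pairwise distinct (copy `Lib.IS.quotientFunc_theta_injective`). -/
theorem quotientFunc_theta1_injective (N : ℕ) [NeZero N] (hN : 3 ≤ N) :
    Function.Injective (SlashInvariantForm.quotientFunc
      (𝒢 := (Gamma1 N).map (Matrix.SpecialLinearGroup.mapGL ℝ)) (ℋ := 𝒮ℒ) (k := 3) (theta1 N)) := by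
  intro q q' h
  induction q using Quotient.inductionOn with
  | h g =>
  induction q' using Quotient.inductionOn with
  | h g' =>
  rw [SlashInvariantForm.quotientFunc_mk, SlashInvariantForm.quotientFunc_mk] at h
  obtain ⟨γ, hγ⟩ := g.2
  obtain ⟨γ', hγ'⟩ := g'.2
  have h2 : (⇑(theta1 N)) ∣[(3 : ℤ)] (γ⁻¹ * γ') = ⇑(theta1 N) := by
    change (⇑(theta1 N)) ∣[(3 : ℤ)] (Matrix.SpecialLinearGroup.mapGL ℝ (γ⁻¹ * γ')) = ⇑(theta1 N)
    rw [map_mul, map_inv, hγ, hγ', SlashAction.slash_mul, h, ← SlashAction.slash_mul,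
      inv_mul_cancel, SlashAction.slash_one]
  have h3 := theta1_stab N hN _ h2
  apply Quotient.sound
  change QuotientGroup.leftRel _ g g'
  rw [QuotientGroup.leftRel_apply, Subgroup.mem_subgroupOf]
  refine ⟨γ⁻¹ * γ', h3, ?_⟩
  rw [map_mul, map_inv, hγ, hγ']
  rfl

end

end Fermat.Agent.S48.Alg
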