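import Fermat.Agent.S48.Alg.General
import Fermat.Agent.S48.Alg.Theta1Q
import Fermat.Agent.S48.Alg.Theta1Stab
import Fermat.Agent.S48.HK.Hecke

/-!
# S48 / ALG: conjugation, finite dimensionality and integral structure for `S_k(Γ₁(N))`, `N ≥ 3`
(assembly of `General.lean` and `Theta1*.lean`)
-/

set_option autoImplicit false

open UpperHalfPlane ModularForm SlashInvariantForm CongruenceSubgroup ModularFormClass
open scoped ModularForm MatrixGroups

namespace Fermat.Agent.S48.Alg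

theorem Gamma1_le_SL (N : ℕ) : (Gamma1 N : Subgroup (GL (Fin 2) ℝ)) ≤ 𝒮ℒ :=
  Subgroup.map_le_range _ _

/-- An odd weight cusp form on `Γ₁(N)`, `N ≤ 2`, vanishes (`-1 ∈ Γ₁(N)`). -/
theorem three_le_of_ne_zero {N : ℕ} {k : ℤ} (hk : Odd k) (f : CuspForm (Gamma1 N) k)
    (hf : f ≠ 0) : 3 ≤ N ∨ N = 0 := by
  by_contra hcon
  push Not at hcon
  obtain ⟨h3, h0⟩ := hcon
  apply hf
  have hmem : (-1 : SL(2, ℤ)) ∈ Gamma1 N := by
    rw [Gamma1_mem]
    have hN : N = 1 ∨ N = 2 := by omega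
    rcases hN with rfl | rfl
    · exact ⟨Subsingleton.elim _ _, Subsingleton.elim _ _, Subsingleton.elim _ _⟩
    · simp only [Matrix.SpecialLinearGroup.coe_neg, Matrix.SpecialLinearGroup.coe_one,
        Matrix.neg_apply, Matrix.one_apply_eq, Matrix.one_apply_ne (one_ne_zero : (1 : Fin 2) ≠ 0)]
      refine ⟨by decide, by decide, by decide⟩
  have hneg : (-1 : GL (Fin 2) ℝ) ∈ (Gamma1 N : Subgroup (GL (Fin 2) ℝ)) := by
    refine ⟨-1, hmem, ?_⟩
    ext i j
    simp
  have h2 : (f : ModularForm (Gamma1 N) k) = 0 := ModularForm.eq_zero_of_neg_one_mem hneg hk _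
  ext τ
  exact DFunLike.congr_fun h2 τ

variable (N : ℕ) [NeZero N]

theorem finiteDimensional_Gamma1 (k : ℤ) : FiniteDimensional ℂ (CuspForm (Gamma1 N) k) :=
  finiteDimensional_cuspFormG (HK.one_mem_strictPeriods_Gamma1 N) k

variable {N}

/-- conjugation of cusp forms on `Γ₁(N)`. -/
theorem conj_Gamma1 (hN : 3 ≤ N) (σ : ℂ →+* ℂ) {k : ℤ} (f : CuspForm (Gamma1 N) k) :
    ∃ F : CuspForm (Gamma1 N) k, ∀ n, qCoeff F n = σ (qCoeff f n) := by
  obtain ⟨F, hF⟩ := conj_of_theta (Gamma1_le_SL N) (HK.one_mem_strictPeriods_Gamma1 N) (theta1 N)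
    (theta1_int N (by omega)) (quotientFunc_theta1_injective N hN) σ f
  refine ⟨F, fun n => ?_⟩
  rw [qCoeff, hF, PowerSeries.coeff_map]
  rfl

/-- the coefficients of a cusp form on `Γ₁(N)` lie in a finitely generated `ℤ`-module.

Proof: by `span_int_eq_top_of_theta`, `f` is in the `ℂ`-span of the forms with integral `q`-expansion.
`Submodule.span_induction`: the set of `f` for which the statement holds contains the integral forms
(`M = ℤ·1`), `0`, is stable under sums (`M ⊔ M'`, `Submodule.FG.sup`, `HK.qCoeff_add`) and under scalar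
multiplication by `c` (`M.map (c • ·)`, `Submodule.FG.map`, `HK.qCoeff_smul`). -/
theorem exists_fg_lattice (hN : 3 ≤ N) {k : ℤ} (f : CuspForm (Gamma1 N) k) :
    ∃ M : Submodule ℤ ℂ, M.FG ∧ ∀ n, qCoeff f n ∈ M := by
  have htop := span_int_eq_top_of_theta (Gamma1_le_SL N) (HK.one_mem_strictPeriods_Gamma1 N)
    (theta1 N) (theta1_int N (by omega)) (quotientFunc_theta1_injective N hN) k
  have hf : f ∈ Submodule.span ℂ {f : CuspForm (Gamma1 N) k |
      ∀ n : ℕ, ∃ m : ℤ, (qExpansion 1 f).coeff n = (m : ℂ)} := by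
    rw [htop]
    exact Submodule.mem_top
  induction hf using Submodule.span_induction with
  | mem g hg =>
    refine ⟨Submodule.span ℤ {1}, Submodule.fg_span_singleton 1, fun n => ?_⟩
    obtain ⟨m, hm⟩ := hg n
    rw [Submodule.mem_span_singleton]
    refine ⟨m, ?_⟩
    rw [qCoeff, hm]
    simp
  | zero =>
    refine ⟨⊥, Submodule.fg_bot, fun n => ?_⟩
    have h1 := HK.qCoeff_smul (0 : ℂ) (0 : CuspForm (Gamma1 N) k) n
    rw [zero_smul, zero_mul] at h1
    rw [h1]
    exact Submodule.zero_mem _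
  | add g g' _ _ ih ih' =>
    obtain ⟨M, hM, h⟩ := ih
    obtain ⟨M', hM', h'⟩ := ih'
    refine ⟨M ⊔ M', hM.sup hM', fun n => ?_⟩
    rw [HK.qCoeff_add]
    exact Submodule.add_mem_sup (h n) (h' n)
  | smul c g _ ih =>
    obtain ⟨M, hM, h⟩ := ih
    refine ⟨M.map ((LinearMap.mulLeft ℂ c).restrictScalars ℤ), hM.map _, fun n => ?_⟩
    rw [HK.qCoeff_smul]
    exact ⟨_, h n, rfl⟩

end Fermat.Agent.S48.Alg
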