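import Fermat.Agent.Lib.IS.Final
import Fermat.Agent.Lib.IS.Abstract
import Fermat.Prelude.Thm_ModularForm_sturm_bound_of_isArithmetic

/-!
# S48 / ALG, leaf G: conjugation and integral structure for cusp forms on a general arithmetic group

This is `Lib/IS/Main.lean` (written for `Γ₀(N)`) for an arbitrary arithmetic subgroup `𝒢 ≤ SL₂(ℤ)` with
`1 ∈ 𝒢.strictPeriods`, given a primitive element `θ` (integral `q`-expansion, pairwise distinct
`SL₂(ℤ)`-translates).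
-/

set_option autoImplicit false

open UpperHalfPlane ModularForm SlashInvariantForm
open scoped ModularForm MatrixGroups

namespace Fermat.Agent.S48.Alg

open Fermat.Agent.Lib.IS

variable {𝒢 : Subgroup (GL (Fin 2) ℝ)} [𝒢.IsArithmetic] [𝒢.HasDetOne]

/-- Sturm bound (`ModularForm.sturm_bound_of_isArithmetic` applied to `f` seen as a modular form;
`PowerSeries.order` is `>` the bound as soon as the coefficients up to the bound vanish:
`PowerSeries.le_order` / `PowerSeries.nat_le_order`). -/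
theorem cuspForm_eq_zero_of_coeff (h1 : (1 : ℝ) ∈ 𝒢.strictPeriods) {k : ℤ} (f : CuspForm 𝒢 k)
    (h : ∀ n : ℕ, n ≤ (k * 𝒢.relIndex 𝒮ℒ).toNat / 12 → (qExpansion 1 f).coeff n = 0) : f = 0 := by
  have h2 : (f : ModularForm 𝒢 k) = 0 := by
    refine ModularForm.sturm_bound_of_isArithmetic h1 ?_
    refine lt_of_lt_of_le ?_ (PowerSeries.nat_le_order _ ((k * 𝒢.relIndex 𝒮ℒ).toNat / 12 + 1)
      fun i hi => h i (Nat.lt_succ_iff.mp hi))
    exact_mod_cast Nat.lt_succ_self _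
  ext τ
  exact DFunLike.congr_fun h2 τ

/-- The coefficient map. (Same proof as `Lib.IS.coeffMap`.) -/
noncomputable def coeffMapG (h1 : (1 : ℝ) ∈ 𝒢.strictPeriods) (k : ℤ) :
    CuspForm 𝒢 k →ₗ[ℂ] (ℕ → ℂ) where
  toFun f n := (qExpansion 1 f).coeff n
  map_add' f g := by
    funext n
    have := ModularForm.qExpansion_add one_pos h1 f g
    rw [FunLike.coe_add, this]
    simp
  map_smul' c f := by
    funext n
    have := ModularForm.qExpansion_smul one_pos h1 c f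
    rw [FunLike.coe_smul, this]
    simp

theorem coeffMapG_apply (h1 : (1 : ℝ) ∈ 𝒢.strictPeriods) (k : ℤ) (f : CuspForm 𝒢 k) (n : ℕ) :
    coeffMapG h1 k f n = (qExpansion 1 f).coeff n := rfl

theorem coeffMapG_injective (h1 : (1 : ℝ) ∈ 𝒢.strictPeriods) (k : ℤ) :
    Function.Injective (coeffMapG (𝒢 := 𝒢) h1 k) := by
  rw [← LinearMap.ker_eq_bot, LinearMap.ker_eq_bot']
  intro f hf
  exact cuspForm_eq_zero_of_coeff h1 f fun n _ ↦ congrFun hf n

/-- (As `Lib.IS.finiteDimensional_cuspForm`.) -/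
theorem finiteDimensional_cuspFormG (h1 : (1 : ℝ) ∈ 𝒢.strictPeriods) (k : ℤ) :
    FiniteDimensional ℂ (CuspForm 𝒢 k) := by
  let B := (k * 𝒢.relIndex 𝒮ℒ).toNat / 12
  let c : CuspForm 𝒢 k →ₗ[ℂ] (Fin (B + 1) → ℂ) :=
    (LinearMap.funLeft ℂ ℂ (fun i : Fin (B + 1) ↦ (i : ℕ))).comp (coeffMapG h1 k)
  refine FiniteDimensional.of_injective c ?_
  rw [← LinearMap.ker_eq_bot, LinearMap.ker_eq_bot']
  intro f hf
  refine cuspForm_eq_zero_of_coeff h1 f fun n hn ↦ ?_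
  exact congrFun hf ⟨n, Nat.lt_succ_of_le hn⟩

/-- Conjugation by a ring endomorphism of `ℂ` (`Lib.IS.cuspForm_conj` + `Lib.IS.levelOne_conj`). -/
theorem conj_of_theta (h𝒢 : 𝒢 ≤ 𝒮ℒ) (h1 : (1 : ℝ) ∈ 𝒢.strictPeriods) {w : ℤ} (θ : ModularForm 𝒢 w)
    (hQ : ∃ Q : PowerSeries ℤ, Q.map (Int.castRingHom ℂ) = qExpansion 1 θ)
    (hθ : Function.Injective (SlashInvariantForm.quotientFunc (ℋ := 𝒮ℒ) θ))
    (σ : ℂ →+* ℂ) {k : ℤ} (f : CuspForm 𝒢 k) :
    ∃ F : CuspForm 𝒢 k, qExpansion 1 F = (qExpansion 1 f).map σ := by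
  obtain ⟨Q, hQ⟩ := hQ
  exact cuspForm_conj h𝒢 h1 θ hθ σ (by
    rw [← hQ]
    ext n
    simp) (fun _ u => levelOne_conj σ u) f

/-- Integral structure: the cusp forms with integral `q`-expansion span.  (Copy the proof of
`Lib.IS.hasIntegralStructure_of` with `levelOne_qExpansion_mem_span`, `levelOne_conj`, `bounded_denom`
plugged in as in `Lib/IS/Final.lean`; `span_rational_eq_top` needs `finiteDimensional_cuspFormG`,
`coeffMapG_injective`, `conj_of_theta`.) -/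
theorem span_int_eq_top_of_theta (h𝒢 : 𝒢 ≤ 𝒮ℒ) (h1 : (1 : ℝ) ∈ 𝒢.strictPeriods) {w : ℤ}
    (θ : ModularForm 𝒢 w)
    (hQ : ∃ Q : PowerSeries ℤ, Q.map (Int.castRingHom ℂ) = qExpansion 1 θ)
    (hθ : Function.Injective (SlashInvariantForm.quotientFunc (ℋ := 𝒮ℒ) θ)) (k : ℤ) :
    Submodule.span ℂ {f : CuspForm 𝒢 k | ∀ n : ℕ, ∃ m : ℤ, (qExpansion 1 f).coeff n = (m : ℂ)} = ⊤ := by
  obtain ⟨Q, hQ'⟩ := hQ
  have := finiteDimensional_cuspFormG (𝒢 := 𝒢) h1 k
  have hrat := span_rational_eq_top (coeffMapG h1 k) (coeffMapG_injective h1 k) (by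
    intro σ f
    obtain ⟨F, hF⟩ := conj_of_theta h𝒢 h1 θ ⟨Q, hQ'⟩ hθ (σ : ℂ →+* ℂ) f
    refine ⟨F, fun n ↦ ?_⟩
    rw [coeffMapG_apply, hF, PowerSeries.coeff_map]
    rfl)
  rw [eq_top_iff, ← hrat, Submodule.span_le]
  intro f hf
  obtain ⟨W, D, b, hD, hlin⟩ := qExpansion_linear_rel h1 θ hθ (f : ModularForm 𝒢 k)
  have hmon := qExpansion_monic_rel h1 f
  have hθS : qExpansion 1 θ ∈ intSpan := Submodule.subset_span ⟨Q, hQ'⟩
  obtain ⟨M, hM, hint⟩ := bounded_denom (qExpansion 1 f) hf (qExpansion 1 D) _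
    (levelOne_qExpansion_mem_span D)
    (fun h ↦ hD ((ModularForm.qExpansion_eq_zero_iff one_pos one_mem_strictPeriods_SL D).mp h))
    (Submodule.sum_mem _ fun m _ ↦
      intSpan_mul (levelOne_qExpansion_mem_span (b m)) (intSpan_pow hθS m)) hlin _
    (fun m ↦ qExpansion 1 (monicCoeff f m)) (fun m ↦ levelOne_qExpansion_mem_span _) hmon
  have hMC : (M : ℂ) ≠ 0 := by exact_mod_cast hM
  have hmem : (M : ℂ) • f ∈
      {f : CuspForm 𝒢 k | ∀ n : ℕ, ∃ m : ℤ, (qExpansion 1 f).coeff n = (m : ℂ)} := by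
    intro n
    obtain ⟨z, hz⟩ := hint n
    refine ⟨z, ?_⟩
    have := congrFun ((coeffMapG h1 k).map_smul (M : ℂ) f) n
    rw [hz]
    exact this
  have : f = (M : ℂ)⁻¹ • ((M : ℂ) • f) := by rw [smul_smul, inv_mul_cancel₀ hMC, one_smul]
  rw [this]
  exact Submodule.smul_mem _ _ (Submodule.subset_span hmem)

end Fermat.Agent.S48.Alg
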