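import Fermat.Agent.S48.Alg.GoodA
import Fermat.Agent.S48.Alg.Dedekind

/-!
# S48 / ALG, leaf GC: finite orbit of depleted data
-/

set_option autoImplicit false

open UpperHalfPlane ModularForm CongruenceSubgroup ModularFormClass
open scoped ModularForm MatrixGroups

namespace Fermat.Agent.S48.Alg

open Fermat.Agent.S48.Rankin

variable {M : ℕ} [NeZero M]

/-- (O) finite orbit.  The orbit is contained in
`{s | s ∈ W ∧ ∃ e ∈ E, IsHeckeSeq M e s}` with `W := LinearMap.range (coeffMapG _ 1)` (finite dimensional by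
`finiteDimensional_Gamma1`, `LinearMap.finiteDimensional_range`) and
`E := Set.range fun χ : DirichletCharacter ℂ M => fun p : ℕ => χ (p : ZMod M)` (finite: `Set.finite_range`, the type of
Dirichlet characters is finite).  For `σ` use `W1Data.exists_conj D σ`: the conjugate data `D'` have
`qCoeff D'.f 0 = 0` (`HK.qCoeff_zero_cusp`), `D'.one`, `D'.hecke`, and the support condition is `σ 0 = 0`.
Then `finite_heckeSeq_mem` and `Set.Finite.subset`. -/
theorem W1Data.finite_orbit (D : W1Data M)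
    (hsupp : ∀ n : ℕ, ¬ n.Coprime M → qCoeff D.f n = 0) :
    (Set.range fun σ : ℂ ≃+* ℂ => fun n => σ (qCoeff D.f n)).Finite := by
  have hfd : FiniteDimensional ℂ (CuspForm (Gamma1 M) 1) := finiteDimensional_Gamma1 M 1
  let W : Submodule ℂ (ℕ → ℂ) :=
    LinearMap.range (coeffMapG (HK.one_mem_strictPeriods_Gamma1 M) (1 : ℤ))
  have hW : FiniteDimensional ℂ W := LinearMap.finiteDimensional_range _
  let E : Set (ℕ → ℂ) := Set.range fun χ : DirichletCharacter ℂ M => fun p : ℕ => χ (p : ZMod M)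
  have hE : E.Finite := Set.finite_range _
  refine (finite_heckeSeq_mem M W E hE).subset ?_
  rintro _ ⟨σ, rfl⟩
  obtain ⟨D', hq, _⟩ := W1Data.exists_conj D (σ : ℂ →+* ℂ)
  have hfun : (fun n => σ (qCoeff D.f n)) = fun n => qCoeff D'.f n := by
    funext n
    exact (hq n).symm
  refine ⟨⟨D'.f, ?_⟩, _, ⟨D'.ε, rfl⟩, ?_⟩
  · exact hfun.symm
  · change IsHeckeSeq M _ (fun n => σ (qCoeff D.f n))
    rw [hfun]
    refine ⟨HK.qCoeff_zero_cusp D'.f, D'.one, fun n hn => ?_, D'.hecke⟩
    rw [hq, hsupp n hn]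
    simp

end Fermat.Agent.S48.Alg
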