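import Fermat.Agent.S48.Alg.VLemma

/-!
# S48 / ALG, leaf NB: the Hecke relations force the nebentypus
-/

set_option autoImplicit false

open CongruenceSubgroup UpperHalfPlane ModularForm ModularFormClass
open scoped MatrixGroups ModularForm Manifold

namespace Fermat.Agent.S48.Alg

open Fermat.Agent.S48.HK

variable {N : ℕ} [NeZero N]

theorem Neben_qCoeff_sub {k : ℤ} (f g : CuspForm (Gamma1 N) k) (n : ℕ) :
    qCoeff (⇑(f - g)) n = qCoeff f n - qCoeff g n := by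
  have h : f - g = f + (-1 : ℂ) • g := by
    rw [neg_one_smul, sub_eq_add_neg]
  rw [h, HK.qCoeff_add, HK.qCoeff_smul]
  ring

/-- (NB1) prime case.  `h := ⟨p⟩ f - ε(p) f`, `h' := T_p f - a_p f`.  By `HK.qCoeff_heckeT` (weight `1`:
`p^(1-1) = 1`), `HK.qCoeff_add`, `HK.qCoeff_smul` and `hT`:
`qCoeff h' n = if p ∣ n then qCoeff h (n / p) else 0`.  So `h = 0` by `eq_zero_of_qCoeff_V`. -/
theorem diamond_eq_of_prime (ε : DirichletCharacter ℂ N) (f : CuspForm (Gamma1 N) 1)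
    (hT : ∀ p : ℕ, p.Prime → ¬ p ∣ N → ∀ n : ℕ,
        qCoeff f (p * n) + ε (p : ZMod N) * (if p ∣ n then qCoeff f (n / p) else 0) =
          qCoeff f p * qCoeff f n) (p : GoodPrime N) :
    diamond 1 p.unit f = ε (p.1 : ZMod N) • f := by
  rw [← sub_eq_zero]
  apply eq_zero_of_qCoeff_V p _ (HK.heckeT 1 p f - qCoeff f p.1 • f)
  intro n
  have h1 := hT p.1 p.2.1 p.2.2 n
  rw [Neben_qCoeff_sub, HK.qCoeff_smul, HK.qCoeff_heckeT]
  simp only [sub_self, zpow_zero, one_mul]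
  split_ifs with hd
  · rw [if_pos hd] at h1
    rw [Neben_qCoeff_sub, HK.qCoeff_smul]
    linear_combination h1
  · rw [if_neg hd] at h1
    linear_combination h1

/-- (NB2) all units: Dirichlet's theorem `Nat.forall_exists_prime_gt_and_eq_mod` gives a prime `p > N` (so
`p ∤ N`) in the class of `d`; then `p.unit = d` (`Units.ext`, `GoodPrime.coe_unit`). -/
theorem diamond_eq (ε : DirichletCharacter ℂ N) (f : CuspForm (Gamma1 N) 1)
    (hT : ∀ p : ℕ, p.Prime → ¬ p ∣ N → ∀ n : ℕ,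
        qCoeff f (p * n) + ε (p : ZMod N) * (if p ∣ n then qCoeff f (n / p) else 0) =
          qCoeff f p * qCoeff f n) (d : (ZMod N)ˣ) :
    diamond 1 d f = ε (d : ZMod N) • f := by
  obtain ⟨p, hpN, hp, hpd⟩ := Nat.forall_exists_prime_gt_and_eq_mod d.isUnit N
  have hndvd : ¬ p ∣ N := fun h => absurd (Nat.le_of_dvd (Nat.pos_of_ne_zero (NeZero.ne N)) h) (by omega)
  let P : GoodPrime N := ⟨p, hp, hndvd⟩
  have hu : P.unit = d := by
    apply Units.ext
    rw [GoodPrime.coe_unit]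
    exact hpd
  have := diamond_eq_of_prime ε f hT P
  rw [hu] at this
  rw [this]
  congr 2

/-- (NB3) in terms of the slash action (`slash_eq_diamond`; `γ_11` is a unit mod `N` because
`γ_00 γ_11 ≡ 1`). -/
theorem slash_eq_of_mem_Gamma0 (ε : DirichletCharacter ℂ N) (f : CuspForm (Gamma1 N) 1)
    (hT : ∀ p : ℕ, p.Prime → ¬ p ∣ N → ∀ n : ℕ,
        qCoeff f (p * n) + ε (p : ZMod N) * (if p ∣ n then qCoeff f (n / p) else 0) =
          qCoeff f p * qCoeff f n) {γ : SL(2, ℤ)} (hγ : γ ∈ Gamma0 N) :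
    ⇑f ∣[(1 : ℤ)] γ = ε ((γ 1 1 : ℤ) : ZMod N) • ⇑f := by
  have hγ0 := hγ
  rw [Gamma0_mem] at hγ0
  have hdet : ((γ 0 0 : ℤ) : ZMod N) * ((γ 1 1 : ℤ) : ZMod N) = 1 := by
    have h1 := γ.det_coe
    rw [Matrix.det_fin_two] at h1
    have h2 := congrArg (Int.cast : ℤ → ZMod N) h1
    push_cast at h2
    rw [hγ0, mul_zero, sub_zero] at h2
    exact h2
  let d : (ZMod N)ˣ := ⟨((γ 1 1 : ℤ) : ZMod N), ((γ 0 0 : ℤ) : ZMod N), by rw [mul_comm]; exact hdet, hdet⟩
  rw [slash_eq_diamond f hγ d rfl, diamond_eq ε f hT d]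
  rfl

end Fermat.Agent.S48.Alg
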