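import Fermat.Agent.S48.Alg.GoodB
import Fermat.Agent.S48.Alg.GoodC
import Fermat.Agent.S48.Alg.Field
import Fermat.Agent.S48.Alg.Neben

/-!
# S48 / ALG: depleted weight one data are good
-/

set_option autoImplicit false

open UpperHalfPlane ModularForm CongruenceSubgroup ModularFormClass
open scoped ModularForm MatrixGroups

namespace Fermat.Agent.S48.Alg

open Fermat.Agent.S48.Rankin

variable {M : ℕ} [NeZero M]

/-- depleted data are good. -/
theorem W1Data.good_of_supp (D : W1Data M)
    (hsupp : ∀ n : ℕ, ¬ n.Coprime M → qCoeff D.f n = 0) : D.Good where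
  integral := W1Data.integral_of_supp D hsupp
  field := exists_numberField_of_finite_orbit _ (W1Data.integral_of_supp D hsupp)
    (W1Data.finite_orbit D hsupp)
  neben := fun _ hγ => slash_eq_of_mem_Gamma0 D.ε D.f D.hecke hγ
  conj := fun σ => by
    obtain ⟨D', h, _⟩ := W1Data.exists_conj D σ
    exact ⟨D', h⟩

end Fermat.Agent.S48.Alg
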