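import Fermat.Agent.S48.Contracts
import Fermat.Agent.S48.Alg.Gamma1
import Fermat.Agent.S48.Rankin.Mult

/-!
# S48 / ALG, leaf GA: conjugate weight one data, values of Dirichlet characters
-/

set_option autoImplicit false

open UpperHalfPlane ModularForm CongruenceSubgroup ModularFormClass
open scoped ModularForm MatrixGroups

namespace Fermat.Agent.S48.Alg

open Fermat.Agent.S48.Rankin

variable {M : ℕ} [NeZero M]

theorem W1Data.three_le (D : W1Data M) : 3 ≤ M := by
  have hf : D.f ≠ 0 := by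
    intro h
    have h1 := D.one
    rw [h] at h1
    have h0 : qCoeff (⇑(0 : CuspForm (Gamma1 M) 1)) 1 = 0 := by
      have : (⇑(0 : CuspForm (Gamma1 M) 1) : ℍ → ℂ) = 0 := rfl
      rw [this, qCoeff, qExpansion_zero]
      simp
    rw [h0] at h1
    exact zero_ne_one h1
  rcases three_le_of_ne_zero (by decide) D.f hf with h | h
  · exact h
  · exact absurd h (NeZero.ne M)

theorem W1Data.heckeRel (D : W1Data M) :
    HeckeRel M (fun n => qCoeff D.f n) (fun p => D.ε (p : ZMod M)) := D.hecke

/-- (C) conjugate data: `F` from `conj_Gamma1`, character `D.ε.ringHomComp σ` (`MulChar.ringHomComp`,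
`MulChar.ringHomComp_apply`); apply `σ` to `D.one`, `D.hecke` (`map_add`, `map_mul`, `apply_ite σ`, `map_zero`). -/
theorem W1Data.exists_conj (D : W1Data M) (σ : ℂ →+* ℂ) :
    ∃ D' : W1Data M, (∀ n : ℕ, qCoeff D'.f n = σ (qCoeff D.f n)) ∧
      ∀ x : ZMod M, D'.ε x = σ (D.ε x) := by
  obtain ⟨F, hF⟩ := conj_Gamma1 (W1Data.three_le D) σ D.f
  refine ⟨⟨D.ε.ringHomComp σ, F, ?_, ?_⟩, hF, fun x => MulChar.ringHomComp_apply _ _ _⟩
  · rw [hF, D.one, map_one]
  · intro p hp hpM n
    have h := congrArg σ (D.hecke p hp hpM n)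
    rw [map_add, map_mul, map_mul, apply_ite σ, map_zero] at h
    rw [hF, hF, hF, hF, MulChar.ringHomComp_apply]
    exact h

/-- values of a Dirichlet character are algebraic integers (`0` or a root of unity:
`x` not a unit: `MulChar.map_nonunit`; `x = ↑u`: `(χ u)^(φ(M)) = χ (u^φ(M)) = 1`, `ZMod.pow_totient`,
`IsIntegral.of_pow`, `isIntegral_one`). -/
theorem isIntegral_dirichlet (χ : DirichletCharacter ℂ M) (x : ZMod M) : IsIntegral ℤ (χ x) := by
  by_cases hx : IsUnit x
  · obtain ⟨u, rfl⟩ := hx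
    have hpos : 0 < Nat.totient M := Nat.totient_pos.2 (NeZero.pos M)
    refine IsIntegral.of_pow hpos ?_
    rw [← map_pow, ← Units.val_pow_eq_pow_val, ZMod.pow_totient, Units.val_one, map_one]
    exact isIntegral_one
  · rw [MulChar.map_nonunit χ hx]
    exact isIntegral_zero

end Fermat.Agent.S48.Alg
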