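import Fermat.Agent.S48.Rankin.Mult

/-!
# S48 / ALG, leaf I: bounded denominators + Hecke recursion ⇒ integrality
-/

set_option autoImplicit false

namespace Fermat.Agent.S48.Alg

open Fermat.Agent.S48.Rankin

/-- (I1) If all `a n` lie in a finitely generated `ℤ`-submodule `M` of `ℂ` then `a p` is an algebraic
integer (`p ∤ N`, `e p` integral).

Proof. `R := Algebra.adjoin ℤ {e p}` is a finite `ℤ`-module (`IsIntegral.fg_adjoin_singleton`).  Let `P` be the
`ℤ`-submodule of `ℂ` spanned by the products `x * a (p ^ j)`, `x ∈ R`, `j : ℕ`.  `P ≤ R.toSubmodule * M`, which is FG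
(`Submodule.FG.mul`), so `P` is FG (`ℤ` is noetherian: `Submodule.FG.of_le` / `IsNoetherian`).
`1 = 1 * a (p^0) ∈ P`, so `P ≠ ⊥`.  `a p * P ≤ P`:
`a p * a (p^0) = a (p^1)`, `a p * a (p^(j+1)) = a (p^(j+2)) + e p * a (p^j)` (`HeckeRel.rec`).
Conclude with `isIntegral_of_smul_mem_submodule`. -/
theorem isIntegral_of_heckeRel {N : ℕ} {a e : ℕ → ℂ} (hT : HeckeRel N a e) (h1 : a 1 = 1)
    (M : Submodule ℤ ℂ) (hM : M.FG) (haM : ∀ n, a n ∈ M) {p : ℕ} (hp : p.Prime) (hpN : ¬ p ∣ N)
    (he : IsIntegral ℤ (e p)) : IsIntegral ℤ (a p) := by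
  set R : Subalgebra ℤ ℂ := Algebra.adjoin ℤ {e p} with hR
  have hRfg : (Subalgebra.toSubmodule R).FG := he.fg_adjoin_singleton
  have heR : e p ∈ R := Algebra.subset_adjoin (Set.mem_singleton _)
  set P : Submodule ℤ ℂ := Submodule.span ℤ {z | ∃ x ∈ R, ∃ j : ℕ, z = x * a (p ^ j)} with hP
  have hPle : P ≤ Subalgebra.toSubmodule R * M := by
    rw [hP, Submodule.span_le]
    rintro _ ⟨x, hx, j, rfl⟩
    exact Submodule.mul_mem_mul hx (haM _)
  have hfg : (Subalgebra.toSubmodule R * M).FG := hRfg.mul hM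
  have hPfg : P.FG := by
    have : IsNoetherian ℤ ↥(Subalgebra.toSubmodule R * M) := isNoetherian_of_fg_of_noetherian _ hfg
    exact Submodule.FG.of_le hfg hPle
  have h1P : (1 : ℂ) ∈ P := by
    apply Submodule.subset_span
    exact ⟨1, R.one_mem, 0, by rw [pow_zero, h1, mul_one]⟩
  have hPbot : P ≠ ⊥ := by
    intro h
    rw [h, Submodule.mem_bot] at h1P
    exact one_ne_zero h1P
  refine isIntegral_of_smul_mem_submodule (N := P) hPbot hPfg (a p) ?_
  · intro n hn
    rw [smul_eq_mul]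
    induction hn using Submodule.span_induction with
    | mem z hz =>
      obtain ⟨x, hx, j, rfl⟩ := hz
      rcases j with _ | j
      · apply Submodule.subset_span
        exact ⟨x, hx, 1, by rw [pow_zero, h1, pow_one]; ring⟩
      · have hrec := hT.rec hp hpN j
        have : a p * (x * a (p ^ (j + 1))) = x * a (p ^ (j + 2)) + (x * e p) * a (p ^ j) := by
          rw [hrec]; ring
        rw [this]
        exact P.add_mem (Submodule.subset_span ⟨x, hx, j + 2, rfl⟩)
          (Submodule.subset_span ⟨x * e p, R.mul_mem hx heR, j, rfl⟩)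
    | zero => rw [mul_zero]; exact P.zero_mem
    | add x y _ _ hx hy => rw [mul_add]; exact P.add_mem hx hy
    | smul c x _ hx => rw [mul_smul_comm]; exact P.smul_mem c hx

/-- (I2) All `a n`, `n` prime to `N`, are polynomials in the `a p`, `e p`.  Strong induction on `n` as in
`IsHeckeSeq.ext`: `n = 1`; `n = p m`: `a (p m) = a p * a m - e p * (if p ∣ m then a (m / p) else 0)`
(`n = 0` is prime to `N` only if `N = 1`; it is excluded by `0 < n`). -/
theorem isIntegral_of_coprime {N : ℕ} {a e : ℕ → ℂ} (hT : HeckeRel N a e) (h1 : a 1 = 1)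
    (ha : ∀ p : ℕ, p.Prime → ¬ p ∣ N → IsIntegral ℤ (a p))
    (he : ∀ p : ℕ, p.Prime → ¬ p ∣ N → IsIntegral ℤ (e p)) (n : ℕ) (hn0 : 0 < n)
    (hn : n.Coprime N) : IsIntegral ℤ (a n) := by
  induction n using Nat.strong_induction_on with
  | _ n ih =>
    by_cases hn1 : n = 1
    · rw [hn1, h1]; exact isIntegral_one
    obtain ⟨p, hp, m, rfl⟩ : ∃ p, p.Prime ∧ ∃ m, n = p * m := by
      obtain ⟨p, hp, hpn⟩ := Nat.exists_prime_and_dvd hn1
      exact ⟨p, hp, hpn⟩
    have hm0 : 0 < m := Nat.pos_of_ne_zero (by rintro rfl; simp at hn0)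
    have hpN : ¬ p ∣ N := by
      intro h
      have h2 : p.Coprime N := Nat.Coprime.coprime_dvd_left (Dvd.intro _ rfl) hn
      exact hp.one_lt.ne' (Nat.Coprime.eq_one_of_dvd h2 h)
    have hmN : m.Coprime N := Nat.Coprime.coprime_dvd_left (Dvd.intro_left _ rfl) hn
    have hmlt : m < p * m := by
      have := hp.one_lt
      nlinarith
    have hrel := hT p hp hpN m
    have hEq : a (p * m) = a p * a m - e p * (if p ∣ m then a (m / p) else 0) := by
      rw [← hrel]; ring
    rw [hEq]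
    refine ((ha p hp hpN).mul (ih m hmlt hm0 hmN)).sub ((he p hp hpN).mul ?_)
    split_ifs with hd
    · obtain ⟨m', rfl⟩ := hd
      have hm'0 : 0 < m' := Nat.pos_of_ne_zero (by rintro rfl; simp at hm0)
      rw [Nat.mul_div_cancel_left _ hp.pos]
      refine ih m' ?_ hm'0 (Nat.Coprime.coprime_dvd_left (Dvd.intro_left _ rfl) hmN)
      have := hp.one_lt
      nlinarith
    · exact isIntegral_zero

end Fermat.Agent.S48.Alg
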