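import Fermat.Agent.S48.Alg.GoodA
import Fermat.Agent.S48.Alg.Integral

/-!
# S48 / ALG, leaf GB: integrality of the coefficients of depleted data
-/

set_option autoImplicit false

open UpperHalfPlane ModularForm CongruenceSubgroup ModularFormClass
open scoped ModularForm MatrixGroups

namespace Fermat.Agent.S48.Alg

open Fermat.Agent.S48.Rankin

variable {M : ℕ} [NeZero M]

/-- (I) integrality of all coefficients of depleted data (`exists_fg_lattice`, `isIntegral_of_heckeRel`,
`isIntegral_of_coprime`; `n` not prime to `M` (this includes `n = 0` as `M ≠ 1`): `hsupp`, `isIntegral_zero`). -/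
theorem W1Data.integral_of_supp (D : W1Data M)
    (hsupp : ∀ n : ℕ, ¬ n.Coprime M → qCoeff D.f n = 0) (n : ℕ) : IsIntegral ℤ (qCoeff D.f n) := by
  by_cases hn : n.Coprime M
  · have h3 : 3 ≤ M := W1Data.three_le D
    have hn0 : 0 < n := by
      rcases Nat.eq_zero_or_pos n with h | h
      · rw [h, Nat.coprime_zero_left] at hn
        omega
      · exact h
    obtain ⟨P, hPfg, hP⟩ := exists_fg_lattice h3 D.f
    have he : ∀ p : ℕ, p.Prime → ¬ p ∣ M → IsIntegral ℤ (D.ε (p : ZMod M)) :=
      fun p _ _ => isIntegral_dirichlet D.ε _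
    exact isIntegral_of_coprime (a := fun n => qCoeff D.f n) (e := fun p => D.ε (p : ZMod M))
      (W1Data.heckeRel D) D.one
      (fun p hp hpM => isIntegral_of_heckeRel (a := fun n => qCoeff D.f n)
        (e := fun p => D.ε (p : ZMod M)) (W1Data.heckeRel D) D.one P hPfg hP hp hpM (he p hp hpM))
      he n hn0 hn
  · rw [hsupp n hn]
    exact isIntegral_zero

end Fermat.Agent.S48.Alg
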