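import Mathlib

/-!
# S48 / ALG, leaf T3: a numerical lemma on `∑_{d u ≡ 1 (N)} d^(-3)`
-/

set_option autoImplicit false

namespace Fermat.Agent.S48.Alg

noncomputable section

/-- `κ_N(u) = ∑_{d ∈ ℤ, d u = 1 in ℤ/N} d^(-3)`. -/
def kap (N : ℕ) (u : ZMod N) : ℂ :=
  ∑' d : ℤ, if (d : ZMod N) * u = 1 then (d : ℂ) ^ (-3 : ℤ) else 0

theorem Kappa_sum_range_succ_le (n : ℕ) :
    ∑ k ∈ Finset.range (n + 1), 1 / ((k : ℝ) + 2) ^ 3 ≤
      5 / 24 - 1 / (2 * ((n : ℝ) + 2) * ((n : ℝ) + 3)) := by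
  induction n with
  | zero => norm_num
  | succ n ih =>
    rw [Finset.sum_range_succ]
    have hn : (0 : ℝ) ≤ n := Nat.cast_nonneg n
    have h : 1 / (((n + 1 : ℕ) : ℝ) + 2) ^ 3 ≤ 1 / (2 * ((n : ℝ) + 2) * ((n : ℝ) + 3)) -
        1 / (2 * (((n + 1 : ℕ) : ℝ) + 2) * (((n + 1 : ℕ) : ℝ) + 3)) := by
      push_cast
      rw [div_sub_div _ _ (by positivity) (by positivity),
        div_le_div_iff₀ (by positivity) (by positivity)]
      nlinarith [mul_nonneg hn hn, mul_nonneg (mul_nonneg hn hn) hn,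
        mul_nonneg (mul_nonneg hn hn) (mul_nonneg hn hn)]
    linarith

theorem Kappa_sum_range_le (n : ℕ) :
    ∑ k ∈ Finset.range n, 1 / ((k : ℝ) + 2) ^ 3 ≤ 5 / 24 := by
  cases n with
  | zero => norm_num
  | succ n =>
    have h := Kappa_sum_range_succ_le n
    have h2 : (0 : ℝ) ≤ 1 / (2 * ((n : ℝ) + 2) * ((n : ℝ) + 3)) := by positivity
    linarith

theorem Kappa_summable_nat : Summable fun k : ℕ => 1 / ((k : ℝ) + 2) ^ 3 :=
  summable_of_sum_range_le (fun _ => by positivity) Kappa_sum_range_le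

theorem Kappa_tsum_nat_le : ∑' k : ℕ, 1 / ((k : ℝ) + 2) ^ 3 ≤ 5 / 24 :=
  Real.tsum_le_of_sum_range_le (fun _ => by positivity) Kappa_sum_range_le

theorem Kappa_hasSum :
    HasSum (fun d : ℤ => if 2 ≤ |d| then (|d| : ℝ) ^ (-3 : ℤ) else 0)
      (∑' k : ℕ, 1 / ((k : ℝ) + 2) ^ 3 + ∑' k : ℕ, 1 / ((k : ℝ) + 2) ^ 3) := by
  have hS := Kappa_summable_nat.hasSum
  refine HasSum.of_nat_of_neg_add_one ?_ ?_
  · have h := (hasSum_nat_add_iff (f := fun n : ℕ =>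
      if 2 ≤ |(n : ℤ)| then (|((n : ℤ) : ℝ)|) ^ (-3 : ℤ) else 0) 2
      (g := ∑' k : ℕ, 1 / ((k : ℝ) + 2) ^ 3)).1 ?_
    · simpa [Finset.sum_range_succ] using h
    · refine hS.congr_fun fun k => ?_
      have h2 : (2 : ℤ) ≤ |((k + 2 : ℕ) : ℤ)| := by
        rw [abs_of_nonneg (by positivity)]; push_cast; omega
      rw [if_pos h2]
      have h3 : |(((k + 2 : ℕ) : ℤ) : ℝ)| = (k : ℝ) + 2 := by
        push_cast
        rw [abs_of_nonneg (by positivity)]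
      rw [h3, zpow_neg, one_div]
      norm_cast
  · have h := (hasSum_nat_add_iff (f := fun n : ℕ =>
      if 2 ≤ |(-((n : ℤ) + 1))| then (|((-((n : ℤ) + 1) : ℤ) : ℝ)|) ^ (-3 : ℤ) else 0) 1
      (g := ∑' k : ℕ, 1 / ((k : ℝ) + 2) ^ 3)).1 ?_
    · simpa [Finset.sum_range_succ] using h
    · refine hS.congr_fun fun k => ?_
      have h2 : (2 : ℤ) ≤ |(-(((k + 1 : ℕ) : ℤ) + 1))| := by
        rw [abs_neg, abs_of_nonneg (by positivity)]; push_cast; omega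
      rw [if_pos h2]
      have h3 : |((-(((k + 1 : ℕ) : ℤ) + 1) : ℤ) : ℝ)| = (k : ℝ) + 2 := by
        push_cast
        rw [abs_neg, abs_of_nonneg (by positivity)]
        ring
      rw [h3, zpow_neg, one_div]
      norm_cast

/-- `∑_{|d| ≥ 2} |d|^(-3) < 1/2`  (`1/d³ < 1/((d-1)d(d+1)) = (1/2)(1/((d-1)d) - 1/(d(d+1)))`, telescoping:
`∑_{d ≥ 2} d^(-3) < 1/4`; or any other estimate). -/
theorem tsum_abs_inv_cube_lt :
    (Summable fun d : ℤ => if 2 ≤ |d| then (|d| : ℝ) ^ (-3 : ℤ) else 0) ∧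
    ∑' d : ℤ, (if 2 ≤ |d| then (|d| : ℝ) ^ (-3 : ℤ) else 0) < 1 / 2 := by
  refine ⟨Kappa_hasSum.summable, ?_⟩
  rw [Kappa_hasSum.tsum_eq]
  have := Kappa_tsum_nat_le
  linarith

/-- the contribution of `d = ± 1` to `kap N u`. -/
def Kappa_main (N : ℕ) (u : ZMod N) : ℂ := (if u = 1 then 1 else 0) + (if u = -1 then -1 else 0)

theorem Kappa_norm_sub_lt {N : ℕ} (hN : 3 ≤ N) (u : ZMod N) :
    ‖kap N u - Kappa_main N u‖ < 1 / 2 := by
  have : Fact (1 < N) := ⟨by omega⟩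
  set c : ℤ → ℂ := fun d => if (d : ZMod N) * u = 1 then (d : ℂ) ^ (-3 : ℤ) else 0 with hc
  set c' : ℤ → ℂ := fun d => if 2 ≤ |d| then c d else 0 with hc'
  have hbound : ∀ d, ‖c' d‖ ≤ (if 2 ≤ |d| then (|d| : ℝ) ^ (-3 : ℤ) else 0) := by
    intro d
    simp only [hc', hc]
    split_ifs with h1 h2
    · rw [norm_zpow]
      simp
    · rw [norm_zero]
      positivity
    · simp
  have hsum' : Summable c' := Summable.of_norm_bounded tsum_abs_inv_cube_lt.1 hbound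
  have hdecomp : ∀ d, c d = c' d + ((if d = 1 then (if u = 1 then (1 : ℂ) else 0) else 0) +
      (if d = -1 then (if u = -1 then (-1 : ℂ) else 0) else 0)) := by
    intro d
    by_cases h2 : 2 ≤ |d|
    · have h1 : d ≠ 1 := by rintro rfl; norm_num at h2
      have h3 : d ≠ -1 := by rintro rfl; norm_num at h2
      simp [hc', h2, h1, h3]
    · have h3 : d = 0 ∨ d = 1 ∨ d = -1 := by
        rw [not_le, abs_lt] at h2
        omega
      rcases h3 with rfl | rfl | rfl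
      · simp [hc', hc]
      · simp [hc', hc]
      · have h4 : (-u = 1) ↔ u = -1 := neg_eq_iff_eq_neg
        have h5 : (((-1 : ℂ) ^ 3)⁻¹) = -1 := by norm_num
        simp [hc', hc, h4, h5]
  have hkap : kap N u = ∑' d, c' d + Kappa_main N u := by
    have hs1 : Summable fun d : ℤ => (if d = 1 then (if u = 1 then (1 : ℂ) else 0) else 0) :=
      (hasSum_ite_eq _ _).summable
    have hs2 : Summable fun d : ℤ => (if d = -1 then (if u = -1 then (-1 : ℂ) else 0) else 0) :=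
      (hasSum_ite_eq _ _).summable
    rw [kap, tsum_congr hdecomp, hsum'.tsum_add (hs1.add hs2), hs1.tsum_add hs2, tsum_ite_eq,
      tsum_ite_eq, Kappa_main]
  rw [hkap, add_sub_cancel_right]
  exact lt_of_le_of_lt (tsum_of_norm_bounded tsum_abs_inv_cube_lt.1.hasSum hbound)
    tsum_abs_inv_cube_lt.2

/-- **Separation.**  For `N ≥ 3`: `κ_N(u) = κ_N(1)` only for `u = 1`.

Proof. Let `E = ∑_{|d| ≥ 2} |d|^(-3) < 1/2`.  `d = 0` never satisfies `d u = 1` (`N > 1`).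
`κ(1) = 1 + (terms with |d| ≥ 2)` (`d = 1` occurs, `d = -1` does not since `-1 ≠ 1` in `ℤ/N`), so
`‖κ(1) - 1‖ ≤ E`.  If `u = -1`: `‖κ(u) + 1‖ ≤ E`, so `κ(u) ≠ κ(1)`.  If `u ≠ ± 1`: only `|d| ≥ 2` occur,
`‖κ(u)‖ ≤ E < 1/2 < ‖κ(1)‖`. -/
theorem eq_one_of_kap_eq {N : ℕ} (hN : 3 ≤ N) (u : ZMod N) (h : kap N u = kap N 1) : u = 1 := by
  by_contra hu
  have : Fact (2 < N) := ⟨by omega⟩
  have h1 := Kappa_norm_sub_lt hN u
  have h2 := Kappa_norm_sub_lt hN 1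
  have h3 : (1 : ZMod N) ≠ -1 := fun h => ZMod.neg_one_ne_one h.symm
  have h4 : ‖Kappa_main N 1 - Kappa_main N u‖ < 1 := by
    have h5 : Kappa_main N 1 - Kappa_main N u =
        (kap N u - Kappa_main N u) - (kap N 1 - Kappa_main N 1) := by
      rw [h]; ring
    rw [h5]
    calc _ ≤ ‖kap N u - Kappa_main N u‖ + ‖kap N 1 - Kappa_main N 1‖ := norm_sub_le _ _
      _ < 1 := by linarith
  rw [Kappa_main, Kappa_main, if_pos rfl, if_neg h3, if_neg hu] at h4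
  split_ifs at h4 <;> norm_num at h4

end

end Fermat.Agent.S48.Alg
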