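import Fermat.Agent.Lib.IS.FixedField

/-!
# S48 / ALG, leaf N: Northcott for algebraic integers, in terms of `Aut(ℂ)`-orbits
-/

set_option autoImplicit false

namespace Fermat.Agent.S48.Alg

open Polynomial

/-- **Northcott.**  There are only finitely many algebraic integers `x ∈ ℂ` contained in an
`Aut(ℂ)`-stable finite set `O` of at most `r` algebraic integers of absolute value `≤ B`.

Proof. `P := ∏_{y ∈ O} (X - C y)` is monic of degree `≤ r`, `P.map σ = P` for all `σ : ℂ ≃+* ℂ` (`σ` is injective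
and maps the finite set `O` into itself, so it permutes `O`: `Finset.prod_bij` / `Finset.map_eq_of_subset`).
So every coefficient is fixed by all `σ`, hence rational
(`Fermat.Agent.Lib.IS.mem_range_ratCast_of_forall_ringEquiv`), and it is integral over `ℤ`
(coefficients of a product of `X - C y` with `y` integral: e.g. `P ∈ lifts` of the integral closure,
`Polynomial.lifts`, or `Multiset.prod_X_sub_C_coeff` + `IsIntegral.multiset_...`), hence an integer
(`IsIntegrallyClosed.isIntegral_iff` for `ℤ ⊆ ℚ`, after `IsIntegral` descends along `ℚ → ℂ`: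
`isIntegral_algebraMap_iff`).  So `P = Q.map (Int.castRingHom ℂ)`.
`‖coeff‖ ≤ max B 1 ^ r * r.choose (r / 2)` by `Polynomial.coeff_bdd_of_roots_le`.  Finitely many integers in
a bounded interval; conclude with `Polynomial.bUnion_roots_finite` (this is the proof of Mathlib's
`NumberField.Embeddings.finite_of_norm_le`). -/
theorem finite_of_orbit_bounded (r : ℕ) (B : ℝ) :
    {x : ℂ | ∃ O : Finset ℂ, O.card ≤ r ∧ x ∈ O ∧ (∀ σ : ℂ ≃+* ℂ, ∀ y ∈ O, σ y ∈ O) ∧
      (∀ y ∈ O, IsIntegral ℤ y) ∧ ∀ y ∈ O, ‖y‖ ≤ B}.Finite := by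
  classical
  let Cb := Nat.ceil (max B 1 ^ r * r.choose (r / 2))
  have hfin := bUnion_roots_finite (Int.castRingHom ℂ) r (Set.finite_Icc (-Cb : ℤ) Cb)
  refine hfin.subset ?_
  rintro x ⟨O, hcard, hxO, hσ, hint, hB⟩
  simp_rw [Set.mem_iUnion]
  set P : ℂ[X] := ∏ y ∈ O, (X - C y) with hP
  have hPmonic : P.Monic := monic_prod_of_monic _ _ (fun y _ => monic_X_sub_C y)
  have hPdeg : P.natDegree = O.card := by
    rw [hP, natDegree_prod_of_monic _ _ (fun y _ => monic_X_sub_C y)]
    simp
  have hPσ : ∀ σ : ℂ ≃+* ℂ, P.map (σ : ℂ →+* ℂ) = P := by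
    intro σ
    rw [hP, Polynomial.map_prod]
    simp only [Polynomial.map_sub, map_X, map_C, RingEquiv.coe_toRingHom]
    have himg : O.image σ = O := by
      apply Finset.eq_of_subset_of_card_le
      · intro z hz
        obtain ⟨y, hy, rfl⟩ := Finset.mem_image.mp hz
        exact hσ σ y hy
      · rw [Finset.card_image_of_injective _ σ.injective]
    conv_rhs => rw [← himg]
    rw [Finset.prod_image (fun a _ b _ h => σ.injective h)]
  have hcoefInt : ∀ i, IsIntegral ℤ (P.coeff i) := by
    let R := integralClosure ℤ ℂ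
    let P' : R[X] := ∏ y ∈ O.attach, (X - C (⟨y.1, hint y.1 y.2⟩ : R))
    have hP' : P'.map (algebraMap R ℂ) = P := by
      rw [Polynomial.map_prod, hP, ← Finset.prod_attach O]
      refine Finset.prod_congr rfl fun y _ => ?_
      rw [Polynomial.map_sub, map_X, map_C]
      rfl
    intro i
    rw [← hP', coeff_map]
    exact (P'.coeff i).2
  have hlift : P ∈ lifts (Int.castRingHom ℂ) := by
    rw [lifts_iff_coeff_lifts]
    intro i
    obtain ⟨q, hq⟩ := Fermat.Agent.Lib.IS.mem_range_ratCast_of_forall_ringEquiv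
      (x := P.coeff i) (fun σ => by
        have := congrArg (fun f : ℂ[X] => f.coeff i) (hPσ σ)
        simpa [coeff_map] using this)
    have h1 : IsIntegral ℤ (algebraMap ℚ ℂ q) := by
      rw [eq_ratCast, hq]
      exact hcoefInt i
    have h2 : IsIntegral ℤ q := (isIntegral_algebraMap_iff (algebraMap ℚ ℂ).injective).mp h1
    obtain ⟨n, hn⟩ := IsIntegrallyClosed.isIntegral_iff.mp h2
    refine ⟨n, ?_⟩
    rw [← hq, ← hn]
    simp
  obtain ⟨Q, hQmap, hQdeg, -⟩ := lifts_and_natDegree_eq_and_monic hlift hPmonic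
  refine ⟨Q, ⟨by rw [hQdeg, hPdeg]; exact hcard, fun i => ?_⟩, ?_⟩
  · have hbd := coeff_bdd_of_roots_le (B := B) (d := r) (RingHom.id ℂ) hPmonic
      (IsAlgClosed.splits _) (by rw [hPdeg]; exact hcard) (by
        intro z hz
        rw [Polynomial.map_id, hP, roots_prod_X_sub_C] at hz
        exact hB z (by simpa using hz)) i
    rw [Polynomial.map_id, ← hQmap, coeff_map, eq_intCast, Complex.norm_intCast] at hbd
    rw [Set.mem_Icc, ← abs_le, ← @Int.cast_le ℝ, Int.cast_abs]
    refine hbd.trans ?_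
    rw [Int.cast_natCast]
    exact Nat.le_ceil _
  · rw [hQmap, Finset.mem_coe, Multiset.mem_toFinset, hP, roots_prod_X_sub_C]
    exact hxO

end Fermat.Agent.S48.Alg
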