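import Fermat.Agent.S48.HK.Hecke

/-!
# S48 / ALG, leaf TW1: additive shifts `f(τ + b/N)`
-/

set_option autoImplicit false

open UpperHalfPlane ModularForm CongruenceSubgroup ModularFormClass
open scoped ModularForm MatrixGroups

namespace Fermat.Agent.S48.Alg

variable {N : ℕ} [NeZero N]

open Matrix.SpecialLinearGroup (mapGL)

/-- The translation matrix `[[1, B/N], [0, 1]]`. -/
noncomputable def shiftMat (N : ℕ) (B : ℤ) : GL (Fin 2) ℝ :=
  upperTriangularGL 1 ((B : ℝ) / N) 1 (by norm_num)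

theorem shift_val_shiftMat (N : ℕ) (B : ℤ) :
    ((shiftMat N B : GL (Fin 2) ℝ) : Matrix (Fin 2) (Fin 2) ℝ) = !![1, (B : ℝ) / N; 0, 1] := rfl

theorem shift_exists_conj (B : ℤ) {γ : SL(2, ℤ)} (hγ : γ ∈ Gamma1 (N ^ 2)) :
    ∃ δ ∈ Gamma1 N, shiftMat N B * mapGL ℝ γ = mapGL ℝ δ * shiftMat N B := by
  rw [Gamma1_mem] at hγ
  obtain ⟨h00, h11, h10⟩ := hγ
  have hdet : γ 0 0 * γ 1 1 - γ 0 1 * γ 1 0 = 1 := by
    have := γ.det_coe
    rwa [Matrix.det_fin_two] at this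
  obtain ⟨a', ha'⟩ : ((N ^ 2 : ℕ) : ℤ) ∣ γ 0 0 - 1 := by
    rw [← ZMod.intCast_zmod_eq_zero_iff_dvd]; push_cast; rw [h00]; ring
  obtain ⟨d', hd'⟩ : ((N ^ 2 : ℕ) : ℤ) ∣ γ 1 1 - 1 := by
    rw [← ZMod.intCast_zmod_eq_zero_iff_dvd]; push_cast; rw [h11]; ring
  obtain ⟨c', hc'⟩ : ((N ^ 2 : ℕ) : ℤ) ∣ γ 1 0 := by
    rw [← ZMod.intCast_zmod_eq_zero_iff_dvd]; exact h10
  push_cast at ha' hd' hc'
  have ha : γ 0 0 = 1 + (N : ℤ) ^ 2 * a' := by linarith
  have hd : γ 1 1 = 1 + (N : ℤ) ^ 2 * d' := by linarith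
  obtain ⟨δ, hδ⟩ : ∃ δ : SL(2, ℤ), (δ : Matrix (Fin 2) (Fin 2) ℤ) =
      !![γ 0 0 + B * N * c', γ 0 1 + B * N * (d' - a') - B ^ 2 * c'; γ 1 0, γ 1 1 - B * N * c'] := by
    refine ⟨⟨!![γ 0 0 + B * N * c', γ 0 1 + B * N * (d' - a') - B ^ 2 * c'; γ 1 0,
      γ 1 1 - B * N * c'], ?_⟩, rfl⟩
    rw [Matrix.det_fin_two_of]
    rw [ha, hd, hc'] at hdet ⊢
    linear_combination hdet
  have e00 : δ 0 0 = γ 0 0 + B * N * c' := by
    rw [hδ]; rfl
  have e01 : δ 0 1 = γ 0 1 + B * N * (d' - a') - B ^ 2 * c' := by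
    rw [hδ]; rfl
  have e10 : δ 1 0 = γ 1 0 := by
    rw [hδ]; rfl
  have e11 : δ 1 1 = γ 1 1 - B * N * c' := by
    rw [hδ]; rfl
  have hN : (N : ℝ) ≠ 0 := by exact_mod_cast NeZero.ne N
  refine ⟨δ, ?_, ?_⟩
  · rw [Gamma1_mem, e00, e11, e10, ha, hd, hc']
    refine ⟨?_, ?_, ?_⟩ <;> push_cast <;> simp
  · apply Units.ext
    rw [Units.val_mul, Units.val_mul, shift_val_shiftMat]
    have haR : ((γ 0 0 : ℤ) : ℝ) = 1 + (N : ℝ) ^ 2 * a' := by exact_mod_cast ha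
    have hdR : ((γ 1 1 : ℤ) : ℝ) = 1 + (N : ℝ) ^ 2 * d' := by exact_mod_cast hd
    have hcR : ((γ 1 0 : ℤ) : ℝ) = (N : ℝ) ^ 2 * c' := by exact_mod_cast hc'
    ext i j
    fin_cases i <;> fin_cases j
    · simp [Matrix.mul_apply, Fin.sum_univ_two, e00, hcR]
      field_simp
    · simp [Matrix.mul_apply, Fin.sum_univ_two, e00, e01, haR, hdR]
      field_simp
      ring
    · simp [Matrix.mul_apply, Fin.sum_univ_two, e10]
    · simp [Matrix.mul_apply, Fin.sum_univ_two, e10, e11, hcR]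
      field_simp
      ring

open ConjAct Pointwise in
theorem shift_Gamma1_le_conj (B : ℤ) :
    (Gamma1 (N ^ 2)).map (mapGL ℝ) ≤ toConjAct (shiftMat N B)⁻¹ • (Gamma1 N).map (mapGL ℝ) := by
  rintro _ ⟨γ, hγ, rfl⟩
  obtain ⟨δ, hδ1, hδ⟩ := shift_exists_conj (N := N) B hγ
  rw [map_inv, Subgroup.mem_inv_pointwise_smul_iff, toConjAct_smul, hδ, mul_inv_cancel_right]
  exact ⟨δ, hδ1, rfl⟩

/-- `f(τ + B/N)` as a cusp form on `Γ₁(N²)`. -/
noncomputable def shiftForm {k : ℤ} (f : CuspForm (Gamma1 N) k) (B : ℤ) :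
    CuspForm (Gamma1 (N ^ 2)) k where
  toFun := ⇑f ∣[k] shiftMat N B
  slash_action_eq' γ hγ :=
    (CuspForm.translate f (shiftMat N B)).slash_action_eq' γ (shift_Gamma1_le_conj B hγ)
  holo' := (CuspForm.translate f (shiftMat N B)).holo'
  zero_at_cusps' hc :=
    (CuspForm.translate f (shiftMat N B)).zero_at_cusps' (hc.mono (shift_Gamma1_le_conj B))

theorem shift_det_shiftMat (N : ℕ) (B : ℤ) : ((shiftMat N B).det : ℝ) = 1 := by
  rw [Matrix.GeneralLinearGroup.val_det_apply, shift_val_shiftMat, Matrix.det_fin_two_of]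
  ring

theorem shift_coe_smul (N : ℕ) (B : ℤ) (τ : ℍ) :
    ((shiftMat N B • τ : ℍ) : ℂ) = (τ : ℂ) + (B : ℂ) / N := by
  rw [UpperHalfPlane.coe_smul_of_det_pos (by rw [shift_det_shiftMat]; exact one_pos)]
  simp [UpperHalfPlane.num, UpperHalfPlane.denom, shift_val_shiftMat]

theorem shift_slash_apply (k : ℤ) (N : ℕ) (B : ℤ) (f : ℍ → ℂ) (τ : ℍ) :
    (f ∣[k] shiftMat N B) τ = f (shiftMat N B • τ) := by
  have hσ : UpperHalfPlane.σ (shiftMat N B) = .refl ℝ ℂ := by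
    rw [UpperHalfPlane.σ, if_pos (by rw [shift_det_shiftMat]; exact one_pos)]
  have hden : UpperHalfPlane.denom (shiftMat N B) τ = 1 := by
    simp [UpperHalfPlane.denom, shift_val_shiftMat]
  rw [ModularForm.slash_apply, hσ, shift_det_shiftMat, hden]
  simp

theorem shift_one_mem_strictPeriods (M : ℕ) :
    (1 : ℝ) ∈ ((Gamma1 M).map (mapGL ℝ)).strictPeriods := by
  simp

theorem shift_qParam (B : ℤ) (τ : ℍ) (m : ℕ) :
    Function.Periodic.qParam 1 ((shiftMat N B • τ : ℍ) : ℂ) ^ m =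
      ZMod.stdAddChar (((B : ZMod N)) * (m : ZMod N)) * Function.Periodic.qParam 1 (τ : ℂ) ^ m := by
  have hN : (N : ℂ) ≠ 0 := by exact_mod_cast NeZero.ne N
  have h1 : ((B : ZMod N)) * (m : ZMod N) = ((B * m : ℤ) : ZMod N) := by push_cast; ring
  rw [h1, ZMod.stdAddChar_coe, shift_coe_smul]
  simp only [Function.Periodic.qParam]
  rw [← Complex.exp_nat_mul, ← Complex.exp_nat_mul, ← Complex.exp_add]
  congr 1
  push_cast
  field_simp
  ring

/-- (TW1) `f(τ + b/N)` is a cusp form on `Γ₁(N²)` with coefficients `e(b n / N) a_n`. -/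
theorem exists_shift {k : ℤ} (f : CuspForm (Gamma1 N) k) (b : ZMod N) :
    ∃ F : CuspForm (Gamma1 (N ^ 2)) k, ∀ n : ℕ,
      qCoeff F n = ZMod.stdAddChar (b * (n : ZMod N)) * qCoeff f n := by
  obtain ⟨B, rfl⟩ := ZMod.intCast_surjective b
  refine ⟨shiftForm f B, fun n => ?_⟩
  have hsum : ∀ τ : ℍ, HasSum (fun m : ℕ ↦
      (ZMod.stdAddChar (((B : ZMod N)) * (m : ZMod N)) * qCoeff f m) •
        Function.Periodic.qParam 1 τ ^ m) (shiftForm f B τ) := by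
    intro τ
    have h := hasSum_qExpansion one_pos
      (SlashInvariantFormClass.periodic_comp_ofComplex f (shift_one_mem_strictPeriods N))
      (ModularFormClass.holo f) (ModularFormClass.bdd_at_infty f) (shiftMat N B • τ)
    have e : shiftForm f B τ = f (shiftMat N B • τ) := shift_slash_apply k N B f τ
    rw [e]
    convert h using 1
    funext m
    rw [shift_qParam B τ m]
    simp only [smul_eq_mul, qCoeff]
    ring
  exact (ModularFormClass.qExpansion_coeff_unique one_pos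
    (shift_one_mem_strictPeriods (N ^ 2)) hsum n).symm

end Fermat.Agent.S48.Alg
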