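import Fermat.Agent.GAL.Tors.TwistedEis

/-!
# S48 / ALG, leaf T: a primitive element `θ₁` for `Γ₁(N)`, `N ≥ 3`

`θ₁(z) = c⁻¹ ∑_{(c,d), c ≡ 1 (N)} (c z + d)^(-3)`, `c = (-2πi)³/2!`: weight `3` on `Γ₁(N)`,
`q`-expansion `∑_n (∑_{r ∣ n, n/r ≡ 1} r² - ∑_{r ∣ n, n/r ≡ -1} r²) q^n ∈ ℤ[[q]]`, and its stabiliser in
`SL₂(ℤ)` is exactly `Γ₁(N)`.
-/

set_option autoImplicit false

open UpperHalfPlane ModularForm EisensteinSeries Complex Real CongruenceSubgroup Matrix Filter Topology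
open scoped MatrixGroups Nat Manifold
open Fermat.Agent.GAL.Tors.TwistedEis

namespace Fermat.Agent.S48.Alg

noncomputable section

/-- indicator of `c ≡ 1 mod N`. -/
def ind1 (N : ℕ) (c : ℤ) : ℂ := if (c : ZMod N) = 1 then 1 else 0

theorem norm_ind1_le (N : ℕ) (c : ℤ) : ‖ind1 N c‖ ≤ 1 := by
  unfold ind1
  split_ifs <;> simp

/-- the normalising constant `(-2πi)³/2!`. -/
def cst3 : ℂ := (-2 * π * Complex.I) ^ 3 / (3 - 1)!

theorem cst3_ne_zero : cst3 ≠ 0 := by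
  unfold cst3
  have : (π : ℂ) ≠ 0 := by exact_mod_cast Real.pi_ne_zero
  have h2 : (((3 - 1)! : ℕ) : ℂ) ≠ 0 := by exact_mod_cast Nat.factorial_ne_zero _
  exact div_ne_zero (pow_ne_zero _ (by simp [this])) h2

/-- the un-normalised series. -/
def theta1Fun (N : ℕ) : ℍ → ℂ := gEis (fun v => ind1 N (v 0)) 3

/-- (T1a) the slash action of `SL₂(ℤ)` (`gEis_slash`; `(v A⁻¹)_0 = v_0 A_11 - v_1 A_10`,
`Matrix.SpecialLinearGroup.coe_inv`, `Matrix.adjugate_fin_two`). -/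
theorem theta1Fun_slash (N : ℕ) (A : SL(2, ℤ)) :
    theta1Fun N ∣[(3 : ℤ)] A = gEis (fun v => ind1 N (v 0 * A 1 1 - v 1 * A 1 0)) 3 := by
  unfold theta1Fun
  rw [gEis_slash]
  congr 1
  funext v
  congr 1
  rw [Matrix.SpecialLinearGroup.coe_inv, Matrix.adjugate_fin_two]
  simp [Matrix.vecMul, dotProduct, Fin.sum_univ_two]
  ring

/-- (T1b) invariance under `Γ₁(N)`. -/
theorem theta1Fun_slash_of_mem (N : ℕ) {A : SL(2, ℤ)} (hA : A ∈ Gamma1 N) :
    theta1Fun N ∣[(3 : ℤ)] A = theta1Fun N := by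
  rw [theta1Fun_slash]
  unfold theta1Fun
  congr 1
  funext v
  obtain ⟨-, h11, h10⟩ := (Gamma1_mem N A).mp hA
  unfold ind1
  have : ((v 0 * A 1 1 - v 1 * A 1 0 : ℤ) : ZMod N) = ((v 0 : ℤ) : ZMod N) := by
    push_cast
    rw [h11, h10, mul_one, mul_zero, sub_zero]
  rw [this]

/-- (T1c) `θ₁` as a modular form (pattern: `Fermat.Agent.S48.HK.diamondMF` for `bdd_at_cusps'`,
with `isBoundedAtImInfty_gEis_slash`, `mdifferentiable_gEis`). -/
def theta1 (N : ℕ) [NeZero N] : ModularForm (Gamma1 N) 3 where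
  toFun := cst3⁻¹ • theta1Fun N
  slash_action_eq' := by
    rintro _ ⟨γ, hγ, rfl⟩
    refine (SL_slash _ γ).symm.trans ?_
    rw [SL_smul_slash, theta1Fun_slash_of_mem N hγ]
  holo' := by
    have h : MDiff (theta1Fun N) :=
      mdifferentiable_gEis (C := 1) (fun v => norm_ind1_le N (v 0)) le_rfl
    exact h.const_smul cst3⁻¹
  bdd_at_cusps' := by
    intro c hc
    rw [Subgroup.IsArithmetic.isCusp_iff_isCusp_SL2Z] at hc
    rw [OnePoint.isBoundedAt_iff_forall_SL2Z hc]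
    intro γ _
    rw [SL_smul_slash]
    have h : IsBoundedAtImInfty (theta1Fun N ∣[(3 : ℤ)] γ) :=
      isBoundedAtImInfty_gEis_slash (C := 1) (fun v => norm_ind1_le N (v 0)) le_rfl γ
    exact h.const_smul_left cst3⁻¹

theorem theta1_apply (N : ℕ) [NeZero N] (z : ℍ) : theta1 N z = cst3⁻¹ * theta1Fun N z := rfl

end

end Fermat.Agent.S48.Alg
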