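import Fermat.Agent.S48.Alg.Theta1Def
import Fermat.Agent.S48.Alg.Kappa

/-! # S48 / ALG, leaf T3': limits at `i∞` of the translates of `θ₁` -/

set_option autoImplicit false

open UpperHalfPlane ModularForm EisensteinSeries Complex Real CongruenceSubgroup Matrix Filter Topology
open scoped MatrixGroups Nat Manifold
open Fermat.Agent.GAL.Tors.TwistedEis

namespace Fermat.Agent.S48.Alg

noncomputable section

theorem Theta1Lim_gEisLim (N : ℕ) (A : SL(2, ℤ)) :
    gEisLim (fun v => ind1 N (v 0 * A 1 1 - v 1 * A 1 0)) 3 =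
      kap N (-(A 1 0 : ℤ) : ZMod N) := by
  unfold gEisLim kap
  have hinj : Function.Injective (fun d : ℤ => (![0, d] : Fin 2 → ℤ)) := by
    intro d d' h
    simpa using congrFun h 1
  rw [← hinj.tsum_eq]
  · refine tsum_congr fun d => ?_
    have h0 : (![0, d] : Fin 2 → ℤ) 0 = 0 := rfl
    have h1 : (![0, d] : Fin 2 → ℤ) 1 = d := rfl
    rw [if_pos h0]
    show ind1 N ((![0, d] : Fin 2 → ℤ) 0 * A 1 1 - (![0, d] : Fin 2 → ℤ) 1 * A 1 0) *
      (((![0, d] : Fin 2 → ℤ) 1 : ℤ) : ℂ) ^ (-3 : ℤ) = _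
    rw [h0, h1, zero_mul, zero_sub]
    unfold ind1
    have h2 : (((-(d * A 1 0) : ℤ)) : ZMod N) = (d : ZMod N) * (-(A 1 0 : ℤ) : ZMod N) := by
      push_cast
      ring
    rw [h2]
    split_ifs
    · rw [one_mul]
    · rw [zero_mul]
  · intro v hv
    rw [Function.mem_support] at hv
    by_cases h0 : v 0 = 0
    · refine ⟨v 1, ?_⟩
      ext i
      fin_cases i
      · exact h0.symm
      · rfl
    · rw [if_neg h0] at hv
      exact absurd rfl hv

/-- (T3) the limit at `i∞` of the translates (`theta1Fun_slash`, `tendsto_gEis` with `w = N`;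
`gEisLim` is a sum over `v` with `v 0 = 0`: reindex by `d = v 1`, e.g. with `finTwoArrowEquiv` and
`tsum_prod`, or `Function.Injective.tsum_eq` for `d ↦ ![0, d]`). -/
theorem tendsto_theta1Fun_slash (N : ℕ) [NeZero N] (A : SL(2, ℤ)) :
    Tendsto (theta1Fun N ∣[(3 : ℤ)] A) atImInfty (𝓝 (kap N (-(A 1 0 : ℤ) : ZMod N))) := by
  rw [theta1Fun_slash, ← Theta1Lim_gEisLim]
  refine tendsto_gEis (C := 1) (fun v => norm_ind1_le N _) le_rfl (NeZero.pos N) ?_
  intro v
  have h0 : (v ᵥ* ((ModularGroup.T ^ (N : ℤ) : SL(2, ℤ)) : Matrix (Fin 2) (Fin 2) ℤ)) 0 = v 0 := by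
    rw [ModularGroup.coe_T_zpow]
    simp [Matrix.vecMul, dotProduct, Fin.sum_univ_two]
  have h1 : (v ᵥ* ((ModularGroup.T ^ (N : ℤ) : SL(2, ℤ)) : Matrix (Fin 2) (Fin 2) ℤ)) 1 =
      v 0 * N + v 1 := by
    rw [ModularGroup.coe_T_zpow]
    simp [Matrix.vecMul, dotProduct, Fin.sum_univ_two]
  show ind1 N _ = ind1 N _
  rw [h0, h1]
  unfold ind1
  have h2 : ((v 0 * A 1 1 - (v 0 * N + v 1) * A 1 0 : ℤ) : ZMod N) =
      ((v 0 * A 1 1 - v 1 * A 1 0 : ℤ) : ZMod N) := by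
    push_cast
    rw [ZMod.natCast_self]
    ring
  rw [h2]

end

end Fermat.Agent.S48.Alg
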