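import Fermat.Agent.S48.Alg.VMat

/-!
# S48 / ALG, leaf V: if `h` and `h(p τ)` are both cusp forms on `Γ₁(N)`, `p ∤ N`, then `h = 0`
-/

set_option autoImplicit false

open CongruenceSubgroup UpperHalfPlane ModularForm ModularFormClass
open scoped MatrixGroups ModularForm Manifold

namespace Fermat.Agent.S48.Alg

open Fermat.Agent.S48.HK

variable {N : ℕ} [NeZero N]

/-- (V4) Key step: if `h' = h ∣ diag(p,1)` is again a cusp form on `Γ₁(N)` then `g := ⟨p⟩ h'` satisfies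
`g ∣ diag(p,1) = p^(k-2) h`.  Proof: `g = h' ∣ κ` (`slash_eq_diamond`), so
`g ∣ δ = h ∣ (δ κ δ) = p^(k-2) • h ∣ γ = p^(k-2) • h` (`SlashAction.slash_mul`, `slash_of_smul`,
`ModularForm.SL_slash`, `inv1_of_form`). -/
theorem diamond_slash_diag {k : ℤ} (p : GoodPrime N) (h h' : CuspForm (Gamma1 N) k)
    (hV : ⇑h' = ⇑h ∣[k] heckeDiagMatrix p.1) :
    ⇑(diamond k p.unit h') ∣[k] heckeDiagMatrix p.1 = ((p.1 : ℂ) ^ (k - 2)) • ⇑h := by
  obtain ⟨γ, κ, hγ, hκ, hκ11, hmat⟩ := exists_VMatrices p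
  have hpos : (0 : ℝ) < (p.1 : ℝ) := by exact_mod_cast p.2.1.pos
  have h1 : ⇑h' ∣[k] κ = ⇑(diamond k p.unit h') :=
    slash_eq_diamond h' hκ p.unit (by rw [hκ11, GoodPrime.coe_unit])
  have h2 : ((⇑h ∣[k] heckeDiagMatrix p.1) ∣[k] (Matrix.SpecialLinearGroup.mapGL ℝ κ)) ∣[k]
      heckeDiagMatrix p.1 = ⇑h ∣[k] (heckeDiagMatrix p.1 * Matrix.SpecialLinearGroup.mapGL ℝ κ *
        heckeDiagMatrix p.1) := by
    rw [SlashAction.slash_mul, SlashAction.slash_mul]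
  have h3 : ⇑h ∣[k] (Matrix.SpecialLinearGroup.mapGL ℝ γ) = ⇑h := inv1_of_form h γ hγ
  rw [← h1, hV]
  change ((⇑h ∣[k] heckeDiagMatrix p.1) ∣[k] (Matrix.SpecialLinearGroup.mapGL ℝ κ)) ∣[k]
      heckeDiagMatrix p.1 = _
  rw [h2, slash_of_smul k (⇑h) hpos hmat, h3]
  simp

/-- (V5) slash form of the lemma.  Claim: for all `n` and all pairs `(h, h')` as in the statement
`qCoeff h n = 0`; strong induction on `n`.  `n = 0`: `qCoeff_zero_cusp`.  `n > 0`: with `g = ⟨p⟩ h'`,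
`(g, p^(k-2) • h)` is again such a pair (V4), and by (V3)
`p^(k-2) qCoeff h n = p^(k-1) (if p ∣ n then qCoeff g (n / p) else 0) = 0` since `n / p < n`.
Then `eq_of_qCoeff_eq`. -/
theorem eq_zero_of_slash_diag {k : ℤ} (p : GoodPrime N) (h h' : CuspForm (Gamma1 N) k)
    (hV : ⇑h' = ⇑h ∣[k] heckeDiagMatrix p.1) : h = 0 := by
  have hpC : (p.1 : ℂ) ≠ 0 := by exact_mod_cast p.2.1.ne_zero
  have key : ∀ n : ℕ, ∀ h h' : CuspForm (Gamma1 N) k, ⇑h' = ⇑h ∣[k] heckeDiagMatrix p.1 →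
      qCoeff h n = 0 := by
    intro n
    induction n using Nat.strong_induction_on with
    | _ n ih =>
      intro h h' hV
      rcases Nat.eq_zero_or_pos n with rfl | hn
      · exact qCoeff_zero_cusp h
      have h4 := diamond_slash_diag p h h' hV
      set g := diamond k p.unit h' with hg
      have hpair : ⇑(((p.1 : ℂ) ^ (k - 2)) • h) = ⇑g ∣[k] heckeDiagMatrix p.1 := by
        rw [h4]; rfl
      have h5 := qCoeff_slash_diag p g n
      rw [← hpair, HK.qCoeff_smul] at h5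
      have h6 : (if p.1 ∣ n then qCoeff g (n / p.1) else 0) = 0 := by
        split_ifs with hd
        · exact ih (n / p.1) (Nat.div_lt_self hn p.2.1.one_lt) g _ hpair
        · rfl
      rw [h6, mul_zero] at h5
      exact (mul_eq_zero.mp h5).resolve_left (zpow_ne_zero _ hpC)
  apply eq_of_qCoeff_eq
  intro n
  rw [key n h h' hV]
  have : (⇑(0 : CuspForm (Gamma1 N) k) : ℍ → ℂ) = 0 := rfl
  rw [this, qCoeff, qExpansion_zero]
  simp

/-- (V6) `q`-expansion form of the lemma.  (`p^(k-1) • h'` and `h ∣ diag(p,1)` are nice functions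
(`HK.Hecke_nice`, and `h ∣ diag = heckeT k p h - heckeU k p h` with `Hecke_nice_heckeT/U`) with the same
`q`-expansion, hence equal: `UpperHalfPlane.eq_of_forall_qCoeff_eq`.) -/
theorem eq_zero_of_qCoeff_V {k : ℤ} (p : GoodPrime N) (h h' : CuspForm (Gamma1 N) k)
    (hV : ∀ n, qCoeff h' n = if p.1 ∣ n then qCoeff h (n / p.1) else 0) : h = 0 := by
  apply eq_zero_of_slash_diag p h (((p.1 : ℂ) ^ (k - 1)) • h')
  have hh := Hecke_nice h
  have h1 := Hecke_nice (((p.1 : ℂ) ^ (k - 1)) • h')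
  have h2 : Fermat.Agent.Lib.IS.Nice (⇑h ∣[k] heckeDiagMatrix p.1) := by
    rw [VMat_slash_diag_eq]
    exact (Hecke_nice_heckeT hh k p.1).add (Hecke_nice_heckeU hh k p.1).neg
  refine UpperHalfPlane.eq_of_forall_qCoeff_eq h1.per h1.holo h1.bdd h2.per h2.holo h2.bdd ?_
  intro n
  rw [HK.qCoeff_smul, qCoeff_slash_diag, hV]

end Fermat.Agent.S48.Alg
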