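import Fermat.Agent.S48.HK.Hecke

/-!
# S48 / ALG, leaf V0: matrices, scalar slash, `q`-expansion of `h ∣ diag(p,1)`
-/

set_option autoImplicit false

open CongruenceSubgroup UpperHalfPlane ModularForm ModularFormClass
open scoped MatrixGroups ModularForm Manifold

namespace Fermat.Agent.S48.Alg

open Fermat.Agent.S48.HK

variable {N : ℕ} [NeZero N]

/-- (V1) The matrices.  Choose `a'` with `p a' ≡ 1 (N)`; `gcd(p a', N) = 1`, so `p a' d - N b = 1` for some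
`b, d`.  `γ = [[p a', b], [N, d]] ∈ Γ₁(N)` (`d ≡ 1` because `p a' d ≡ 1`), `κ = [[a', b], [N, p d]] ∈ Γ₀(N)`,
`κ_11 = p d ≡ p`, and `diag(p,1) κ diag(p,1) = p γ` (identity of the underlying real matrices;
`val_heckeDiagMatrix`, `ext i j; fin_cases i <;> fin_cases j <;> simp [Matrix.mul_apply, Fin.sum_univ_two]`, see
`Lib/IS/Theta.lean` `exists_conj_of_mem_Gamma0` for the pattern). -/
theorem exists_VMatrices (p : GoodPrime N) :
    ∃ γ κ : SL(2, ℤ), γ ∈ Gamma1 N ∧ κ ∈ Gamma0 N ∧ ((κ 1 1 : ℤ) : ZMod N) = (p.1 : ZMod N) ∧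
      ((heckeDiagMatrix p.1 * Matrix.SpecialLinearGroup.mapGL ℝ κ * heckeDiagMatrix p.1 :
          GL (Fin 2) ℝ) : Matrix (Fin 2) (Fin 2) ℝ) =
        (p.1 : ℝ) • ((Matrix.SpecialLinearGroup.mapGL ℝ γ : GL (Fin 2) ℝ) :
          Matrix (Fin 2) (Fin 2) ℝ) := by
  have hp0 : p.1 ≠ 0 := p.2.1.ne_zero
  have hcop : IsCoprime (p.1 : ℤ) (N : ℤ) :=
    Nat.isCoprime_iff_coprime.mpr ((Nat.Prime.coprime_iff_not_dvd p.2.1).mpr p.2.2)
  obtain ⟨u, v, huv⟩ := hcop
  have hdγ : (!![(p.1 : ℤ) * u, -v; (N : ℤ), 1]).det = 1 := by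
    rw [Matrix.det_fin_two_of]; linarith
  have hdκ : (!![u, -v; (N : ℤ), (p.1 : ℤ)]).det = 1 := by
    rw [Matrix.det_fin_two_of]; linarith
  let γ : SL(2, ℤ) := ⟨!![(p.1 : ℤ) * u, -v; (N : ℤ), 1], hdγ⟩
  let κ : SL(2, ℤ) := ⟨!![u, -v; (N : ℤ), (p.1 : ℤ)], hdκ⟩
  have hγ : (γ : Matrix (Fin 2) (Fin 2) ℤ) = !![(p.1 : ℤ) * u, -v; (N : ℤ), 1] := rfl
  have hκ : (κ : Matrix (Fin 2) (Fin 2) ℤ) = !![u, -v; (N : ℤ), (p.1 : ℤ)] := rfl
  refine ⟨γ, κ, ?_, ?_, ?_, ?_⟩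
  · rw [Gamma1_mem, hγ]
    refine ⟨?_, ?_, ?_⟩
    · have h2 := congrArg (Int.cast : ℤ → ZMod N) huv
      push_cast at h2
      simp only [CharP.cast_eq_zero, mul_zero, add_zero] at h2
      simp only [Matrix.of_apply, Matrix.cons_val_zero, Matrix.cons_val', Matrix.cons_val_fin_one]
      push_cast
      rw [mul_comm]
      exact h2
    · simp
    · simp
  · rw [Gamma0_mem, hκ]
    simp
  · rw [hκ]
    simp
  · rw [Units.val_mul, Units.val_mul, val_heckeDiagMatrix hp0]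
    ext i j
    fin_cases i <;> fin_cases j <;>
      simp [Matrix.mul_apply, Fin.sum_univ_two, hγ, hκ, Matrix.vecMul, dotProduct] <;> ring

/-- (V2) Slash by a positive scalar multiple: if `(g : Matrix) = c • (g' : Matrix)`, `c > 0`, then
`f ∣[k] g = c^(k-2) • f ∣[k] g'`  (`ModularForm.slash_apply`: `det g = c² det g'`, `denom g = c denom g'`,
`g • τ = g' • τ`, `σ g = σ g'`). -/
theorem slash_of_smul (k : ℤ) (f : ℍ → ℂ) {g g' : GL (Fin 2) ℝ} {c : ℝ} (hc : 0 < c)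
    (h : (g : Matrix (Fin 2) (Fin 2) ℝ) = c • (g' : Matrix (Fin 2) (Fin 2) ℝ)) :
    f ∣[k] g = ((c : ℂ) ^ (k - 2)) • (f ∣[k] g') := by
  have hent : ∀ i j, g i j = c * g' i j := by
    intro i j
    have := congrFun (congrFun h i) j
    simpa using this
  have hdet : (g.det : ℝ) = c ^ 2 * (g'.det : ℝ) := by
    rw [Matrix.GeneralLinearGroup.val_det_apply, Matrix.GeneralLinearGroup.val_det_apply, h,
      Matrix.det_smul]
    simp
  have hσ : UpperHalfPlane.σ g = UpperHalfPlane.σ g' := by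
    unfold UpperHalfPlane.σ
    have : (0 < (g.det : ℝ)) ↔ (0 < (g'.det : ℝ)) := by
      rw [hdet]
      constructor
      · intro h1
        by_contra h2
        have : c ^ 2 * (g'.det : ℝ) ≤ 0 := mul_nonpos_of_nonneg_of_nonpos (by positivity) (not_lt.mp h2)
        linarith
      · intro h1
        positivity
    simp only [this]
  have hcC : (c : ℂ) ≠ 0 := by exact_mod_cast hc.ne'
  have hden : ∀ τ : ℍ, denom g τ = c * denom g' τ := by
    intro τ
    simp only [denom, hent]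
    push_cast
    ring
  have hnum : ∀ τ : ℍ, num g τ = c * num g' τ := by
    intro τ
    simp only [num, hent]
    push_cast
    ring
  have hsmul : ∀ τ : ℍ, g • τ = g' • τ := by
    intro τ
    apply UpperHalfPlane.ext
    rw [UpperHalfPlane.coe_smul, UpperHalfPlane.coe_smul, hσ, hnum, hden, mul_div_mul_left _ _ hcC]
  funext τ
  rw [Pi.smul_apply, ModularForm.slash_apply, ModularForm.slash_apply, hσ, hsmul, hden, hdet,
    abs_mul, abs_of_pos (by positivity : (0:ℝ) < c ^ 2), smul_eq_mul, mul_zpow]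
  push_cast
  rw [mul_zpow, ← zpow_natCast (c : ℂ) 2, ← zpow_mul]
  have e : (c : ℂ) ^ (k - 2) = (c : ℂ) ^ (((2 : ℕ) : ℤ) * (k - 1)) * (c : ℂ) ^ (-k) := by
    rw [← zpow_add₀ hcC]
    congr 1
    push_cast
    ring
  rw [e]
  ring

theorem VMat_slash_diag_eq (k : ℤ) (p : ℕ) (f : ℍ → ℂ) :
    f ∣[k] heckeDiagMatrix p = ModularForm.heckeT k p f + - ModularForm.heckeU k p f := by
  rw [ModularForm.heckeT_eq_heckeU_add]
  abel


/-- (V3) `q`-expansion of `h ∣ diag(p,1)` (`heckeT_eq_heckeU_add`, `ModularFormClass.qCoeff_heckeT`,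
`ModularFormClass.qCoeff_heckeU`, exactly as in the proof of `HK.qCoeff_heckeT`). -/
theorem qCoeff_slash_diag {k : ℤ} (p : GoodPrime N) (h : CuspForm (Gamma1 N) k) (n : ℕ) :
    qCoeff (⇑h ∣[k] heckeDiagMatrix p.1) n =
      (p.1 : ℂ) ^ (k - 1) * (if p.1 ∣ n then qCoeff h (n / p.1) else 0) := by
  have hp0 : p.1 ≠ 0 := p.2.1.ne_zero
  have hh := Hecke_nice h
  rw [VMat_slash_diag_eq,
    Hecke_qCoeff_add (Hecke_nice_heckeT hh k p.1) (Hecke_nice_heckeU hh k p.1).neg,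
    Hecke_qCoeff_neg (Hecke_nice_heckeU hh k p.1),
    ModularFormClass.qCoeff_heckeU h (one_mem_strictPeriods_Gamma1 N) hp0,
    ModularFormClass.qCoeff_heckeT h (one_mem_strictPeriods_Gamma1 N) hp0,
    ModularForm.coeffHeckeT_eq_coeffHeckeU_add]
  split_ifs <;> ring

end Fermat.Agent.S48.Alg
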